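import Mathlib
import Fermat.Prelude.Def_AlgebraicCurve_Correspondence

/-!
# P-GATEWAY, WP-HK2 (abstract part): correspondences commute with semilinear automorphisms

Let `φ ψ : F →ₐ[K] F'` be homomorphisms of function fields and `g`, `g'` semilinear automorphisms
of `F`, `F'` intertwined by both `φ` and `ψ`.  Then the correspondence `ψ_* φ^*` on divisors and
on `Pic⁰` commutes with the action of `g`.
-/

set_option autoImplicit false
set_option linter.unusedSectionVars false
set_option linter.style.haveILetI false

noncomputable section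

open AlgebraicCurve

namespace Fermat.Agent.Gateway.Hecke

open scoped Pointwise

variable {K F F' : Type*} [Field K] [Field F] [Field F'] [Algebra K F] [Algebra K F']

section Places

variable (φ : F →ₐ[K] F') (hφ : φ.toRingHom.IsIntegral)
  (g : SemilinearAut K F) (g' : SemilinearAut K F')

/-- `φ` intertwines `g` and `g'`. -/
def Intertwines : Prop := ∀ x : F, g' • φ x = φ (g • x)

variable {φ g g'}

theorem Intertwines.inv (h : Intertwines φ g g') : Intertwines φ g⁻¹ g'⁻¹ := fun x => by
  have hx := h (g⁻¹ • x)
  rw [smul_inv_smul] at hx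
  rw [← hx, inv_smul_smul]

theorem intertwines_of_intertwinesAlong
    (h : SemilinearAut.IntertwinesAlong (φ : F →+* F') g g') : Intertwines φ g g' := h

/-- Restriction of places commutes with the action. -/
theorem restrictAlong_smul (h : Intertwines φ g g') (w : Place K F') :
    (g' • w).restrictAlong φ hφ = g • w.restrictAlong φ hφ := by
  apply Place.ext
  ext f
  letI := algebraAlong φ
  haveI := isScalarTower_along φ
  haveI := isIntegral_along φ hφ
  show f ∈ ((g' • w).restrict F).toValuationSubring ↔
    f ∈ (g • (w.restrict F)).toValuationSubring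
  rw [Place.mem_restrict_iff, SemilinearAut.smul_toValuationSubring,
    SemilinearAut.smul_toValuationSubring,
    ValuationSubring.mem_pointwise_smul_iff_inv_smul_mem,
    ValuationSubring.mem_pointwise_smul_iff_inv_smul_mem, Place.mem_restrict_iff]
  have := h.inv f
  show g'⁻¹ • φ f ∈ w.toValuationSubring ↔ φ (g⁻¹ • f) ∈ w.toValuationSubring
  rw [this]

/-- Orders along `φ` are compatible with the action. -/
theorem ord_smul_apply (h : Intertwines φ g g') (w : Place K F') (f : F) :
    (g' • w).ord (φ f) = w.ord (φ (g⁻¹ • f)) := by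
  have h1 := SemilinearAut.ord_smul g' w (g'⁻¹ • φ f)
  rw [smul_inv_smul] at h1
  rw [h1, h.inv f]

/-- The ramification index is invariant under the action. -/
theorem ramificationIndexAlong_smul (h : Intertwines φ g g') (w : Place K F') :
    (g' • w).ramificationIndexAlong φ = w.ramificationIndexAlong φ := by
  letI := algebraAlong φ
  show Place.ramificationIndex (F := F) (g' • w) = Place.ramificationIndex (F := F) w
  unfold Place.ramificationIndex
  congr 1
  ext n
  simp only [Set.mem_ofPred_eq]
  constructor
  · rintro ⟨hn, f, hf, hfn⟩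
    refine ⟨hn, g⁻¹ • f, by simpa using hf, ?_⟩
    rw [← hfn]
    exact (ord_smul_apply h w f).symm
  · rintro ⟨hn, f, hf, hfn⟩
    refine ⟨hn, g • f, by simpa using hf, ?_⟩
    rw [← hfn]
    have := ord_smul_apply h w (g • f)
    rw [inv_smul_smul] at this
    exact this

/-- The inertia degree is invariant under the action, when degrees do not vanish. -/
theorem inertiaDegAlong_smul (hdeg : ∀ v : Place K F, v.deg ≠ 0) (h : Intertwines φ g g')
    (w : Place K F') :
    (g' • w).inertiaDegAlong φ hφ = w.inertiaDegAlong φ hφ := by
  have hr := restrictAlong_smul (hφ := hφ) h w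
  letI := algebraAlong φ
  haveI := isScalarTower_along φ
  haveI := isIntegral_along φ hφ
  have h1 : ((g' • w).restrict F).deg * (g' • w).inertiaDeg F = (g' • w).deg :=
    (g' • w).deg_restrict_mul_inertiaDeg (F := F)
  have h2 : (w.restrict F).deg * w.inertiaDeg F = w.deg := w.deg_restrict_mul_inertiaDeg (F := F)
  have hr' : (g' • w).restrict F = g • w.restrict F := hr
  rw [hr', SemilinearAut.deg_smul, SemilinearAut.deg_smul, ← h2] at h1
  exact Nat.eq_of_mul_eq_mul_left (Nat.pos_of_ne_zero (hdeg _)) h1

end Places

section Divisors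

variable {φ ψ : F →ₐ[K] F'} {hφ : φ.toRingHom.IsIntegral} {hψ : ψ.toRingHom.IsIntegral}
  {g : SemilinearAut K F} {g' : SemilinearAut K F'}

/-- Pullback of divisors commutes with the action. -/
theorem pullbackAlong_smul [HasPrincipalDivisors K F'] (h : Intertwines φ g g')
    (D : Divisor K F) :
    Divisor.pullbackAlong φ hφ (g • D) = g' • Divisor.pullbackAlong φ hφ D := by
  ext w
  rw [Divisor.pullbackAlong_apply, SemilinearAut.divisor_smul_apply,
    SemilinearAut.divisor_smul_apply, Divisor.pullbackAlong_apply,
    restrictAlong_smul (hφ := hφ) h.inv w, ramificationIndexAlong_smul h.inv w]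

/-- Pushforward of divisors commutes with the action. -/
theorem pushforwardAlong_smul (hdeg : ∀ v : Place K F, v.deg ≠ 0) (h : Intertwines ψ g g')
    (D : Divisor K F') :
    Divisor.pushforwardAlong ψ hψ (g' • D) = g • Divisor.pushforwardAlong ψ hψ D := by
  induction D using Finsupp.induction with
  | zero => simp
  | single_add w n D _ _ ih =>
    rw [smul_add, map_add, map_add, smul_add, ih, SemilinearAut.smul_single,
      Divisor.pushforwardAlong_single, Divisor.pushforwardAlong_single,
      SemilinearAut.smul_single, restrictAlong_smul (hφ := hψ) h w,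
      inertiaDegAlong_smul (hφ := hψ) hdeg h w]

/-- The correspondence `ψ_* φ^*` on divisors commutes with the action. -/
theorem divisorCorrespondence_smul [HasPrincipalDivisors K F']
    (hdeg : ∀ v : Place K F, v.deg ≠ 0) (h₁ : Intertwines φ g g') (h₂ : Intertwines ψ g g')
    (D : Divisor K F) :
    Divisor.correspondence φ ψ hφ hψ (g • D) = g • Divisor.correspondence φ ψ hφ hψ D := by
  rw [Divisor.correspondence_apply, Divisor.correspondence_apply, pullbackAlong_smul h₁,
    pushforwardAlong_smul hdeg h₂]

/-- **The correspondence on `Pic⁰` commutes with the action.** -/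
theorem pic0Correspondence_smul [HasPrincipalDivisors K F']
    (hFI : FundamentalIdentityAlong K φ hφ) (hfin : FiniteAlong K ψ)
    (hN : NormFormulaAlong K ψ hfin)
    (hdeg : ∀ v : Place K F, v.deg ≠ 0) (h₁ : Intertwines φ g g') (h₂ : Intertwines ψ g g')
    (x : Pic0 K F) :
    g • Pic0.correspondence φ ψ hφ hψ hFI hfin hN x =
      Pic0.correspondence φ ψ hφ hψ hFI hfin hN (g • x) := by
  obtain ⟨D, rfl⟩ := Pic0.mk_surjective x
  rw [Pic0.correspondence_mk, SemilinearAut.pic0_smul_mk, SemilinearAut.pic0_smul_mk,
    Pic0.correspondence_mk]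
  refine congrArg Pic0.mk (Subtype.ext ?_)
  rw [SemilinearAut.coe_degZeroSMulHom, Pic0.coe_degZeroCorrespondence,
    Pic0.coe_degZeroCorrespondence, SemilinearAut.coe_degZeroSMulHom,
    divisorCorrespondence_smul hdeg h₁ h₂]

end Divisors

end Fermat.Agent.Gateway.Hecke
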