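import Mathlib
import Fermat.Prelude.Thm_ModularForm_heckeT_slash_eq_self_of_mem_Gamma0
import Fermat.Agent.Gateway.A2.Defs

/-!
# P-GATEWAY WP-HK4: the Hecke operator `T_l` on `Hom(Γ₀(N), A)`

For a prime `l ∤ N`, the coset representatives `heckeRep l x`, `x ∈ ℙ¹(𝔽_l)`, of
`Γ₀(N) \ Γ₀(N) diag(l, 1) Γ₀(N)` satisfy `heckeRep l x * γ = coc x γ * heckeRep l (γ̄ • x)` with
`coc x γ ∈ Γ₀(N)` (`γ̄ = redMatrix l γ`).  The Hecke operator on additive characters is
`(heckeHom φ) γ = ∑ x, φ (coc x γ)`.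
-/

set_option autoImplicit false
set_option linter.unusedSectionVars false

namespace Fermat.Agent.Gateway.HeckeCoh

open P2MW.S_ModularForm_heckeT_slash_eq_self_of_mem_Gamma0.ModularForm.HeckeSlashInvariance
open CongruenceSubgroup Matrix.SpecialLinearGroup
open scoped MatrixGroups

/-- `redMatrix` is an anti-homomorphism. -/
theorem redMatrix_mul (l : ℕ) [Fact l.Prime] (g h : SL(2, ℤ)) :
    redMatrix l (g * h) = redMatrix l h * redMatrix l g := by
  apply Matrix.GeneralLinearGroup.ext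
  intro i j
  fin_cases i <;> fin_cases j <;>
    simp [Matrix.mul_apply, Fin.sum_univ_two, Matrix.SpecialLinearGroup.coe_mul] <;> ring

theorem redMatrix_one (l : ℕ) [Fact l.Prime] : redMatrix l (1 : SL(2, ℤ)) = 1 := by
  apply Matrix.GeneralLinearGroup.ext
  intro i j
  fin_cases i <;> fin_cases j <;> simp

variable (N l : ℕ) [NeZero N] [Fact l.Prime] (hlN : ¬ l ∣ N)

include hlN in
theorem exists_coc (x : OnePoint (ZMod l)) (gam : Gamma0 N) :
    ∃ g' : Gamma0 N, heckeRep l x * mapGL ℝ (gam : SL(2, ℤ)) =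
      mapGL ℝ (g' : SL(2, ℤ)) * heckeRep l (redMatrix l (gam : SL(2, ℤ)) • x) := by
  have hcN : (N : ℤ) ∣ (gam : SL(2, ℤ)) 1 0 :=
    (ZMod.intCast_zmod_eq_zero_iff_dvd _ _).mp (Gamma0_mem.mp gam.2)
  obtain ⟨g', hg', h⟩ := heckeRep_mul hlN (gam : SL(2, ℤ)) hcN x
  exact ⟨⟨g', Gamma0_mem.mpr ((ZMod.intCast_zmod_eq_zero_iff_dvd _ _).mpr hg')⟩, h⟩

/-- The cocycle `coc x γ ∈ Γ₀(N)` with `heckeRep l x * γ = coc x γ * heckeRep l (γ̄ • x)`. -/
noncomputable def coc (x : OnePoint (ZMod l)) (gam : Gamma0 N) : Gamma0 N :=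
  (exists_coc N l hlN x gam).choose

theorem coc_spec (x : OnePoint (ZMod l)) (gam : Gamma0 N) :
    heckeRep l x * mapGL ℝ (gam : SL(2, ℤ)) =
      mapGL ℝ (coc N l hlN x gam : SL(2, ℤ)) *
        heckeRep l (redMatrix l (gam : SL(2, ℤ)) • x) :=
  (exists_coc N l hlN x gam).choose_spec

/-- Uniqueness of the cocycle. -/
theorem coc_unique {x : OnePoint (ZMod l)} {gam g' : Gamma0 N}
    (h : heckeRep l x * mapGL ℝ (gam : SL(2, ℤ)) =
      mapGL ℝ (g' : SL(2, ℤ)) * heckeRep l (redMatrix l (gam : SL(2, ℤ)) • x)) :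
    coc N l hlN x gam = g' := by
  have h1 := coc_spec N l hlN x gam
  rw [h] at h1
  have h2 := mul_right_cancel h1
  exact Subtype.ext (mapGL_injective (R := ℤ) (S := ℝ) h2).symm

theorem coc_mul (x : OnePoint (ZMod l)) (gam del : Gamma0 N) :
    coc N l hlN x (gam * del) =
      coc N l hlN x gam * coc N l hlN (redMatrix l (gam : SL(2, ℤ)) • x) del := by
  apply coc_unique
  rw [Subgroup.coe_mul, map_mul, ← mul_assoc, coc_spec N l hlN x gam, mul_assoc,
    coc_spec N l hlN _ del, ← mul_assoc, Subgroup.coe_mul, map_mul, redMatrix_mul, mul_smul]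

theorem coc_one (x : OnePoint (ZMod l)) : coc N l hlN x 1 = 1 := by
  apply coc_unique
  simp [redMatrix_one]

/-- The Hecke operator `T_l` on additive characters of `Γ₀(N)`:
`(heckeHom φ) γ = ∑ x, φ (coc x γ)`. -/
noncomputable def heckeHom (A : Type*) [AddCommGroup A] :
    (Additive (Gamma0 N) →+ A) →+ (Additive (Gamma0 N) →+ A) where
  toFun φ :=
    { toFun := fun gam => ∑ x : OnePoint (ZMod l), φ (Additive.ofMul (coc N l hlN x gam.toMul))
      map_zero' := by
        show ∑ x : OnePoint (ZMod l), φ (Additive.ofMul (coc N l hlN x 1)) = 0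
        simp [coc_one]
      map_add' := by
        intro a b
        show ∑ x : OnePoint (ZMod l), φ (Additive.ofMul (coc N l hlN x (a.toMul * b.toMul))) = _
        simp_rw [coc_mul, ofMul_mul, map_add, Finset.sum_add_distrib]
        congr 1
        exact Equiv.sum_comp (MulAction.toPerm (redMatrix l (a.toMul : SL(2, ℤ))))
          (fun y => φ (Additive.ofMul (coc N l hlN y b.toMul))) }
  map_zero' := by
    ext gam
    simp
  map_add' := by
    intro φ ψ
    ext gam
    simp [Finset.sum_add_distrib]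

theorem heckeHom_apply (A : Type*) [AddCommGroup A] (φ : Additive (Gamma0 N) →+ A)
    (gam : Gamma0 N) :
    heckeHom N l hlN A φ (Additive.ofMul gam) =
      ∑ x : OnePoint (ZMod l), φ (Additive.ofMul (coc N l hlN x gam)) := rfl

/-- Naturality of `heckeHom` in the coefficient group. -/
theorem heckeHom_comp {A B : Type*} [AddCommGroup A] [AddCommGroup B] (f : A →+ B)
    (φ : Additive (Gamma0 N) →+ A) :
    heckeHom N l hlN B (f.comp φ) = f.comp (heckeHom N l hlN A φ) := by
  ext gam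
  show ∑ x : OnePoint (ZMod l), f (φ (Additive.ofMul (coc N l hlN x gam))) =
    f (∑ x : OnePoint (ZMod l), φ (Additive.ofMul (coc N l hlN x gam)))
  rw [map_sum]

end Fermat.Agent.Gateway.HeckeCoh
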