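import Mathlib
import Fermat.Agent.S24.PrincDiv

/-!
# P-GATEWAY, WP-HK1: field-theoretic lemmas (finite generation, towers)

* `isAlgebraic_of_relation` : a nontrivial polynomial relation `∑ pᵢ(y) sⁱ = 0` with `y`
  transcendental makes `s` algebraic over `K(y)`;
* `finiteDimensional_of_generators` : a field generated by finitely many elements algebraic over
  `K(y)` is finite over `K(y)`;
* `finiteDimensional_of_algebraMap` : if `F'` is finite over `K(x')`, `x'` the image of `x ∈ F`,
  then `F'` is finite over `F`;
* `finiteDimensional_of_transcendental_algebraMap`.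
-/

set_option autoImplicit false
set_option linter.unusedSectionVars false
set_option linter.style.haveILetI false

noncomputable section

open IntermediateField

namespace Fermat.Agent.Gateway.Hecke

section Relation

variable {K E : Type*} [Field K] [Field E] [Algebra K E]

/-- A nontrivial relation `∑ pᵢ(y) sⁱ = 0` over `K`, with `y` transcendental, shows that `s` is
algebraic over `K(y)`. -/
theorem isAlgebraic_of_relation {y s : E} (hy : Transcendental K y) {m : ℕ}
    (p : Fin (m + 1) → Polynomial K) (hp : ∃ i, p i ≠ 0)
    (hrel : ∑ i, Polynomial.aeval y (p i) * s ^ (i : ℕ) = 0) : IsAlgebraic K⟮y⟯ s := by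
  let g : K⟮y⟯ := AdjoinSimple.gen K y
  have hg : algebraMap K⟮y⟯ E g = y := AdjoinSimple.algebraMap_gen K y
  have hgt : Transcendental K g := by
    rw [← hg] at hy
    exact (transcendental_algebraMap_iff (algebraMap K⟮y⟯ E).injective).mp hy
  let Q : Polynomial K⟮y⟯ :=
    ∑ i : Fin (m + 1), Polynomial.C (Polynomial.aeval g (p i)) * Polynomial.X ^ (i : ℕ)
  have hcoeff : ∀ i : Fin (m + 1), Q.coeff (i : ℕ) = Polynomial.aeval g (p i) := by
    intro i
    simp only [Q, Polynomial.finsetSum_coeff, Polynomial.coeff_C_mul, Polynomial.coeff_X_pow]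
    rw [Finset.sum_eq_single i]
    · simp
    · intro j _ hji
      have : (i : ℕ) ≠ (j : ℕ) := fun h => hji (Fin.ext h.symm)
      simp [this]
    · intro h
      exact absurd (Finset.mem_univ i) h
  refine ⟨Q, ?_, ?_⟩
  · obtain ⟨i, hi⟩ := hp
    intro hQ
    have h0 : Polynomial.aeval g (p i) = 0 := by rw [← hcoeff i, hQ, Polynomial.coeff_zero]
    exact hi ((transcendental_iff.mp hgt) (p i) h0)
  · simp only [Q, map_sum, map_mul, Polynomial.aeval_C, map_pow, Polynomial.aeval_X]
    rw [← hrel]
    refine Finset.sum_congr rfl fun i _ => ?_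
    have h := Polynomial.aeval_algebraMap_apply E g (p i)
    rw [hg] at h
    rw [h]

end Relation

section Generators

variable {K E : Type*} [Field K] [Field E] [Algebra K E]

/-- A field generated over `K` by a finite set of elements algebraic over `K(y)` is finite
over `K(y)`. -/
theorem finiteDimensional_of_generators (y : E) (S : Set E) (hS : S.Finite)
    (hgen : IntermediateField.adjoin K S = ⊤) (halg : ∀ s ∈ S, IsAlgebraic K⟮y⟯ s) :
    FiniteDimensional K⟮y⟯ E := by
  haveI : Finite S := hS
  have h1 : FiniteDimensional K⟮y⟯ (IntermediateField.adjoin K⟮y⟯ S) :=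
    IntermediateField.finiteDimensional_adjoin fun s hs => (halg s hs).isIntegral
  have h2 : IntermediateField.adjoin K⟮y⟯ S = ⊤ := by
    rw [← IntermediateField.restrictScalars_eq_top_iff (K := K), eq_top_iff, ← hgen,
      IntermediateField.adjoin_le_iff]
    intro s hs
    exact IntermediateField.subset_adjoin K⟮y⟯ S hs
  rw [h2] at h1
  exact Module.Finite.equiv (IntermediateField.topEquiv (F := K⟮y⟯) (E := E)).toLinearEquiv

end Generators

section Tower

variable {K F F' : Type*} [Field K] [Field F] [Field F'] [Algebra K F] [Algebra K F']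
  [Algebra F F'] [IsScalarTower K F F']

/-- If `F'` is finite over `K(x')`, where `x'` is the image of `x ∈ F`, then `F'` is finite
over `F`. -/
theorem finiteDimensional_of_algebraMap (x : F) [FiniteDimensional K⟮algebraMap F F' x⟯ F'] :
    FiniteDimensional F F' := by
  let E : IntermediateField K F := K⟮x⟯
  let E' : IntermediateField K F' := K⟮algebraMap F F' x⟯
  have h1 : E.map (IsScalarTower.toAlgHom K F F') = E' := by
    show (K⟮x⟯).map (IsScalarTower.toAlgHom K F F') = K⟮algebraMap F F' x⟯
    rw [IntermediateField.adjoin_map, Set.image_singleton]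
    rfl
  have hEE' : ∀ e : E, algebraMap F F' (e : F) ∈ E' := by
    intro e
    rw [← h1]
    exact ⟨e, e.2, rfl⟩
  let _ : Algebra E E' :=
    (((algebraMap F F').comp (algebraMap E F)).codRestrict E'.toSubring hEE').toAlgebra
  have : IsScalarTower E E' F' := IsScalarTower.of_algebraMap_eq fun e => rfl
  have hsurj : Function.Surjective (algebraMap E E') := by
    rintro ⟨e', he'⟩
    rw [← h1] at he'
    obtain ⟨e, he, rfl⟩ := he'
    exact ⟨⟨e, he⟩, rfl⟩
  have : Module.Finite E E' :=
    Module.Finite.of_surjective (Algebra.linearMap E E') hsurj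
  have : Module.Finite E' F' := inferInstanceAs (FiniteDimensional K⟮algebraMap F F' x⟯ F')
  have : Module.Finite E F' := Module.Finite.trans E' F'
  exact Module.Finite.of_restrictScalars_finite E F F'

/-- If `F'` is finite over `K(x)` for some transcendental `x`, and the image of `y ∈ F` in `F'`
is transcendental, then `F'` is finite over `F`. -/
theorem finiteDimensional_of_transcendental_algebraMap (y : F)
    (hy : Transcendental K (algebraMap F F' y)) (x : F') (hx : Transcendental K x)
    [FiniteDimensional K⟮x⟯ F'] : FiniteDimensional F F' := by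
  haveI : FiniteDimensional K⟮algebraMap F F' y⟯ F' :=
    Fermat.Agent.S24.PDiv.finiteDimensional_adjoin_simple_of_transcendental hx hy
  exact finiteDimensional_of_algebraMap (K := K) y

end Tower

end Fermat.Agent.Gateway.Hecke
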