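import Fermat.Agent.Gateway.Hecke.LocalExt

/-!
# P-GATEWAY, WP-HK1, abstract core (part 2): the norm formula

For a finite extension `F ⊆ F'` of function fields over an algebraically closed field of
characteristic zero and a place `v` of `F`:
`ord_v (N_{F'/F} f) = ∑_{w ∣ v} ord_w f`, hence `Divisor.PushforwardNormFormula K F F'`.
-/

set_option autoImplicit false
set_option linter.unusedSectionVars false
set_option linter.style.haveILetI false

noncomputable section

open AlgebraicCurve IsDedekindDomain IntermediateField

namespace Fermat.Agent.Gateway.Hecke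

section Dedekind

variable {R S : Type*} [CommRing R] [IsDedekindDomain R] [CommRing S] [IsDedekindDomain S]
  [Algebra R S] [Module.Finite R S] [Module.IsTorsionFree R S] [PerfectField (FractionRing R)]

/-- Multiplicity of a maximal ideal in the norm of an element, when all residue degrees over it
are one. -/
theorem emultiplicity_intNorm (p : Ideal R) [p.IsMaximal] (hp : p ≠ ⊥)
    (hdeg : ∀ q ∈ p.primesOver S, q.inertiaDeg R = 1) (s : S) (hs : s ≠ 0) :
    emultiplicity p (Ideal.span {Algebra.intNorm R S s}) =
      ∑ q ∈ IsDedekindDomain.primesOverFinset p S, emultiplicity q (Ideal.span {s}) := by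
  rw [← Ideal.relNorm_singleton]
  rw [Fermat.Agent.S24.ZP.emultiplicity_relNorm p hp (IsDedekindDomain.primesOverFinset p S) (fun q => ?_)
    (Ideal.span {s}) (by simpa [Ideal.span_singleton_eq_bot] using hs)]
  · refine Finset.sum_congr rfl fun q hq => ?_
    rw [hdeg q ((IsDedekindDomain.mem_primesOverFinset_iff hp S).mp hq), Nat.cast_one, one_mul]
  · rw [IsDedekindDomain.mem_primesOverFinset_iff hp S]
    constructor
    · rintro ⟨h1, h2⟩
      exact ⟨h1, h2.over.symm⟩
    · rintro ⟨h1, h2⟩
      exact ⟨h1, ⟨h2.symm⟩⟩

end Dedekind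

section Places

open Fermat.Agent.S24

variable {K F F' : Type*} [Field K] [Field F] [Field F'] [Algebra K F] [Algebra K F']
  [Algebra F F'] [IsScalarTower K F F'] [FiniteDimensional F F']

omit [Algebra K F'] [Algebra F F'] [IsScalarTower K F F'] [FiniteDimensional F F'] in
theorem ord_nonneg_of_mem_valuationSubring (v : Place K F) {f : F}
    (h : f ∈ v.toValuationSubring) : 0 ≤ v.ord f := by
  rcases eq_or_ne f 0 with rfl | hf
  · simp
  · exact (ZP.ord_nonneg_iff v hf).mpr h

/-- The height one prime of the valuation ring of a place. -/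
def primeOfSelf (v : Place K F) : HeightOneSpectrum v.toValuationSubring :=
  ZP.primeOfPlace (R := v.toValuationSubring) v (fun r => r.2)

theorem primeOfSelf_asIdeal (v : Place K F) :
    (primeOfSelf v).asIdeal = IsLocalRing.maximalIdeal v.toValuationSubring := by
  ext r
  show ZP.toPlaceHom v (fun r => r.2) r ∈ IsLocalRing.maximalIdeal v.toValuationSubring ↔ _
  have : ZP.toPlaceHom (R := v.toValuationSubring) v (fun r => r.2) r = r := Subtype.ext rfl
  rw [this]

theorem ofHeightOneSpectrum_primeOfSelf (v : Place K F) :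
    Place.ofHeightOneSpectrum (K := K) (F := F) (primeOfSelf v) = v :=
  ZP.ofHeightOneSpectrum_primeOfPlace v _

/-- multiplicity of the maximal ideal of the valuation ring = order. -/
theorem emultiplicity_maximalIdeal (v : Place K F) (a : v.toValuationSubring) (ha : a ≠ 0) :
    emultiplicity (IsLocalRing.maximalIdeal v.toValuationSubring) (Ideal.span {a}) =
      ((v.ord (a : F)).toNat : ℕ∞) := by
  have h := ZP.emultiplicity_eq_ord (K := K) (F := F) (primeOfSelf v) a ha
  rw [ofHeightOneSpectrum_primeOfSelf, primeOfSelf_asIdeal] at h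
  exact h

variable [CharZero F]

/-- The height one prime of `Bv v` attached to a place over `v`. -/
def primeOfFiber (v : Place K F) (w : Place K F') (hw : w.restrict F = v) :
    HeightOneSpectrum (Bv (F' := F') v) :=
  ZP.primeOfPlace (R := Bv (F' := F') v) w ((restrict_eq_iff v w).mp hw)

theorem ofHeightOneSpectrum_primeOfFiber (v : Place K F) (w : Place K F')
    (hw : w.restrict F = v) :
    Place.ofHeightOneSpectrum (K := K) (F := F') (primeOfFiber v w hw) = w :=
  ZP.ofHeightOneSpectrum_primeOfPlace w _

theorem restrict_ofHeightOneSpectrum (v : Place K F) (q : HeightOneSpectrum (Bv (F' := F') v)) :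
    (Place.ofHeightOneSpectrum (K := K) (F := F') q).restrict F = v :=
  (restrict_eq_iff v _).mpr fun b => ZP.algebraMap_mem_ofHeightOneSpectrum q b

theorem primeOfFiber_ofHeightOneSpectrum (v : Place K F)
    (q : HeightOneSpectrum (Bv (F' := F') v)) :
    primeOfFiber v (Place.ofHeightOneSpectrum (K := K) (F := F') q)
      (restrict_ofHeightOneSpectrum v q) = q :=
  ZP.primeOfPlace_ofHeightOneSpectrum q

theorem emultiplicity_primeOfFiber (v : Place K F) (w : Place K F') (hw : w.restrict F = v)
    (b : Bv (F' := F') v) (hb : b ≠ 0) :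
    emultiplicity (primeOfFiber v w hw).asIdeal (Ideal.span {b}) =
      ((w.ord (b : F')).toNat : ℕ∞) := by
  have h := ZP.emultiplicity_eq_ord (K := K) (F := F') (primeOfFiber v w hw) b hb
  rw [ofHeightOneSpectrum_primeOfFiber] at h
  exact h

theorem maximalIdeal_ne_bot (v : Place K F) :
    IsLocalRing.maximalIdeal v.toValuationSubring ≠ ⊥ :=
  IsDiscreteValuationRing.not_a_field _

/-- Every nonzero prime of `Bv v` lies over the maximal ideal. -/
theorem liesOver_maximalIdeal (v : Place K F) (q : HeightOneSpectrum (Bv (F' := F') v)) :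
    q.asIdeal.LiesOver (IsLocalRing.maximalIdeal v.toValuationSubring) := by
  constructor
  have hne : q.asIdeal.under v.toValuationSubring ≠ ⊥ :=
    Ideal.under_ne_bot (A := v.toValuationSubring) q.ne_bot
  have hprime : (q.asIdeal.under v.toValuationSubring).IsPrime := Ideal.IsPrime.under _ _
  exact (IsLocalRing.eq_maximalIdeal (hprime.isMaximal hne)).symm

end Places

section Norm

open Fermat.Agent.S24

variable {K F F' : Type*} [Field K] [Field F] [Field F'] [Algebra K F] [Algebra K F']
  [Algebra F F'] [IsScalarTower K F F'] [FiniteDimensional F F'] [IsAlgClosed K] [CharZero K]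
variable (x : F) (hx : Transcendental K x) [FiniteDimensional K⟮x⟯ F]

include hx in
theorem residue_surjective_quotient (v : Place K F) :
    Function.Surjective
      (algebraMap K (v.toValuationSubring ⧸ IsLocalRing.maximalIdeal v.toValuationSubring)) := by
  intro q
  obtain ⟨a, rfl⟩ := Ideal.Quotient.mk_surjective q
  obtain ⟨c, hc⟩ := PD.residue_surjective hx v (IsLocalRing.residue v.toValuationSubring a)
  refine ⟨c, ?_⟩
  have hc' : IsLocalRing.residue v.toValuationSubring
      (algebraMap K v.toValuationSubring c) = IsLocalRing.residue v.toValuationSubring a := hc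
  rw [← sub_eq_zero, ← map_sub, IsLocalRing.residue_eq_zero_iff] at hc'
  rw [IsScalarTower.algebraMap_apply K v.toValuationSubring
    (v.toValuationSubring ⧸ IsLocalRing.maximalIdeal v.toValuationSubring),
    Ideal.Quotient.algebraMap_eq]
  exact Ideal.Quotient.eq.mpr hc'

include hx in
/-- The order of the norm of an element of the integral closure. -/
theorem ord_norm_eq_sum_of_integral [HasPrincipalDivisors K F'] (v : Place K F)
    (b : Bv (F' := F') v) (hb : b ≠ 0) :
    v.ord (Algebra.norm F (b : F')) = ∑ w ∈ v.fiber F', w.ord (b : F') := by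
  classical
  have hF0 : CharZero F := charZero_of_algebra K
  have hA0 : CharZero v.toValuationSubring :=
    charZero_of_injective_algebraMap (R := K) (RingHom.injective _)
  have hFr0 : CharZero (FractionRing v.toValuationSubring) :=
    charZero_of_injective_algebraMap (R := v.toValuationSubring)
      (IsFractionRing.injective _ _)
  set p := IsLocalRing.maximalIdeal v.toValuationSubring with hp_def
  have hp : p ≠ ⊥ := maximalIdeal_ne_bot v
  have hres := residue_surjective_quotient x hx v
  have hdeg : ∀ q ∈ p.primesOver (Bv (F' := F') v), q.inertiaDeg v.toValuationSubring = 1 := by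
    rintro q ⟨hq1, hq2⟩
    have : q.IsMaximal := Ideal.IsMaximal.of_liesOver_isMaximal q p
    exact ZD.inertiaDeg_eq_one_of_isAlgClosed (K := K) p hres q
  have key := emultiplicity_intNorm p hp hdeg b hb
  -- the norm
  have hN : ((Algebra.intNorm v.toValuationSubring (Bv (F' := F') v) b : v.toValuationSubring) : F)
      = Algebra.norm F (b : F') :=
    Algebra.algebraMap_intNorm (A := v.toValuationSubring) (K := F) (L := F')
      (B := Bv (F' := F') v) b
  have hN0 : Algebra.intNorm v.toValuationSubring (Bv (F' := F') v) b ≠ 0 := by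
    intro h0
    have h1 : Algebra.norm F (b : F') = 0 := by rw [← hN, h0]; rfl
    rw [Algebra.norm_eq_zero_iff] at h1
    exact hb (Subtype.ext h1)
  rw [emultiplicity_maximalIdeal v _ hN0, hN] at key
  -- the sum
  have hsum : ∑ q ∈ IsDedekindDomain.primesOverFinset p (Bv (F' := F') v),
      emultiplicity q (Ideal.span {b}) = ∑ w ∈ v.fiber F', ((w.ord (b : F')).toNat : ℕ∞) := by
    symm
    refine Finset.sum_bij'
      (fun w hw => (primeOfFiber v w (Place.mem_fiber.mp hw)).asIdeal)
      (fun q hq => Place.ofHeightOneSpectrum (K := K) (F := F')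
        (⟨q, ((IsDedekindDomain.mem_primesOverFinset_iff hp _).mp hq).1,
          Ideal.ne_bot_of_mem_primesOver hp
            ((IsDedekindDomain.mem_primesOverFinset_iff hp _).mp hq)⟩ :
          HeightOneSpectrum (Bv (F' := F') v)))
      ?_ ?_ ?_ ?_ ?_
    · intro w hw
      rw [IsDedekindDomain.mem_primesOverFinset_iff hp]
      exact ⟨(primeOfFiber v w (Place.mem_fiber.mp hw)).isPrime, liesOver_maximalIdeal v _⟩
    · intro q hq
      exact Place.mem_fiber.mpr (restrict_ofHeightOneSpectrum v _)
    · intro w hw
      exact ofHeightOneSpectrum_primeOfFiber v w (Place.mem_fiber.mp hw)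
    · intro q hq
      exact congrArg HeightOneSpectrum.asIdeal (primeOfFiber_ofHeightOneSpectrum v _)
    · intro w hw
      exact (emultiplicity_primeOfFiber v w (Place.mem_fiber.mp hw) b hb).symm
  rw [hsum, ← Nat.cast_sum, Nat.cast_inj] at key
  -- back to integers
  have hnonneg : ∀ w ∈ v.fiber F', 0 ≤ w.ord (b : F') := by
    intro w hw
    have hmem : (b : F') ∈ w.toValuationSubring :=
      (restrict_eq_iff v w).mp (Place.mem_fiber.mp hw) b
    exact ord_nonneg_of_mem_valuationSubring w hmem
  have hNnonneg : 0 ≤ v.ord (Algebra.norm F (b : F')) := by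
    rw [← hN]
    exact ord_nonneg_of_mem_valuationSubring v (Subtype.property _)
  calc v.ord (Algebra.norm F (b : F'))
      = ((v.ord (Algebra.norm F (b : F'))).toNat : ℤ) := (Int.toNat_of_nonneg hNnonneg).symm
    _ = ((∑ w ∈ v.fiber F', (w.ord (b : F')).toNat : ℕ) : ℤ) := by rw [key]
    _ = ∑ w ∈ v.fiber F', w.ord (b : F') := by
        rw [Nat.cast_sum]
        exact Finset.sum_congr rfl fun w hw => Int.toNat_of_nonneg (hnonneg w hw)

include hx in
/-- **Norm formula**: `ord_v (N_{F'/F} f) = ∑_{w ∣ v} ord_w f`. -/
theorem ord_norm_eq_sum [HasPrincipalDivisors K F'] (v : Place K F) (f : F') (hf : f ≠ 0) :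
    v.ord (Algebra.norm F f) = ∑ w ∈ v.fiber F', w.ord f := by
  have hF0 : CharZero F := charZero_of_algebra K
  obtain ⟨r, s, hs, rfl⟩ := IsFractionRing.div_surjective (A := Bv (F' := F') v) f
  have hs0 : s ≠ 0 := nonZeroDivisors.ne_zero hs
  have hsF : (s : F') ≠ 0 := fun h => hs0 (Subtype.ext h)
  have hrF : (r : F') ≠ 0 := by
    intro h
    apply hf
    show (r : F') / (s : F') = 0
    rw [h, zero_div]
  have hr0 : r ≠ 0 := fun h => hrF (by rw [h]; rfl)
  show v.ord (Algebra.norm F ((r : F') / (s : F'))) = ∑ w ∈ v.fiber F', w.ord ((r : F') / (s : F'))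
  have hNr : Algebra.norm F (r : F') ≠ 0 := by rwa [Ne, Algebra.norm_eq_zero_iff]
  have hNs : Algebra.norm F (s : F') ≠ 0 := by rwa [Ne, Algebra.norm_eq_zero_iff]
  have hfs : (r : F') / (s : F') * (s : F') = (r : F') := div_mul_cancel₀ _ hsF
  have hNf : Algebra.norm F ((r : F') / (s : F')) ≠ 0 := by
    rw [Ne, Algebra.norm_eq_zero_iff]
    exact div_ne_zero hrF hsF
  have hN : Algebra.norm F ((r : F') / (s : F')) * Algebra.norm F (s : F')
      = Algebra.norm F (r : F') := by rw [← map_mul, hfs]
  have h1 := v.ord_mul hNf hNs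
  rw [hN, ord_norm_eq_sum_of_integral x hx v r hr0,
    ord_norm_eq_sum_of_integral x hx v s hs0] at h1
  have h2 : ∑ w ∈ v.fiber F', w.ord (r : F') =
      ∑ w ∈ v.fiber F', w.ord ((r : F') / (s : F')) + ∑ w ∈ v.fiber F', w.ord (s : F') := by
    rw [← Finset.sum_add_distrib]
    refine Finset.sum_congr rfl fun w _ => ?_
    rw [ZP.ord_div w hrF hsF]
    ring
  linarith

include hx in
/-- **The pushforward of a principal divisor is the divisor of the norm.** -/
theorem pushforwardNormFormula_of_finite : Divisor.PushforwardNormFormula K F F' := by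
  classical
  haveI := hasPrincipalDivisors_of_finite (F' := F') x hx
  intro f hf D hD v
  rw [Divisor.pushforward_apply, ord_norm_eq_sum x hx v f hf, ← Finset.sum_filter]
  have hsub : D.support.filter (fun w => w.restrict F = v) ⊆ v.fiber F' := by
    intro w hw
    exact Place.mem_fiber.mpr (Finset.mem_filter.mp hw).2
  rw [← Finset.sum_subset hsub]
  · refine Finset.sum_congr rfl fun w _ => ?_
    rw [inertiaDeg_eq_one (F' := F') x hx w, Nat.cast_one, mul_one, hD]
  · intro w hw hnot
    rw [← hD]
    by_contra h0
    exact hnot (Finset.mem_filter.mpr ⟨Finsupp.mem_support_iff.mpr h0, Place.mem_fiber.mp hw⟩)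

end Norm

end Fermat.Agent.Gateway.Hecke
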