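import Fermat.Prelude.Def_AlgebraicCurve_Correspondence
import Fermat.Agent.Gateway.Hecke.NormFormula
import Fermat.Agent.Gateway.Hecke.FieldLemmas

/-!
# P-GATEWAY, WP-HK1: the abstract core, along a homomorphism

The inputs of `AlgebraicCurve.Pic0.correspondence` for a `K`-algebra homomorphism
`φ : F →ₐ[K] F'` of function fields over an algebraically closed field of characteristic zero:
`FiniteAlong`, integrality, `FundamentalIdentityAlong`, `NormFormulaAlong`.
-/

set_option autoImplicit false
set_option linter.unusedSectionVars false
set_option linter.style.haveILetI false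

noncomputable section

open AlgebraicCurve IntermediateField

namespace Fermat.Agent.Gateway.Hecke

variable {K F F' : Type*} [Field K] [Field F] [Field F'] [Algebra K F] [Algebra K F']

/-- A homomorphism of function fields with transcendental image of some element is finite. -/
theorem finiteAlong_of_transcendental (φ : F →ₐ[K] F') (y : F) (hy : Transcendental K (φ y))
    (x : F') (hx : Transcendental K x) [FiniteDimensional K⟮x⟯ F'] : FiniteAlong K φ := by
  letI := algebraAlong φ
  haveI := isScalarTower_along φ
  exact finiteDimensional_of_transcendental_algebraMap (K := K) (F := F) (F' := F') y hy x hx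

theorem isIntegral_of_finiteAlong (φ : F →ₐ[K] F') (hfin : FiniteAlong K φ) :
    φ.toRingHom.IsIntegral := by
  letI := algebraAlong φ
  haveI : Module.Finite F F' := hfin
  intro z
  exact Algebra.IsIntegral.isIntegral (R := F) z

variable [IsAlgClosed K] [CharZero K]

theorem fundamentalIdentityAlong_of_finite (φ : F →ₐ[K] F') (hφ : φ.toRingHom.IsIntegral)
    [HasPrincipalDivisors K F'] (hfin : FiniteAlong K φ) (x : F) (hx : Transcendental K x)
    [FiniteDimensional K⟮x⟯ F] : FundamentalIdentityAlong K φ hφ := by
  letI := algebraAlong φ
  haveI := isScalarTower_along φ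
  haveI : FiniteDimensional F F' := hfin
  exact fundamentalIdentity_of_finite (K := K) (F := F) (F' := F') x hx

theorem normFormulaAlong_of_finite (φ : F →ₐ[K] F') (hfin : FiniteAlong K φ) (x : F)
    (hx : Transcendental K x) [FiniteDimensional K⟮x⟯ F] : NormFormulaAlong K φ hfin := by
  letI := algebraAlong φ
  haveI := isScalarTower_along φ
  haveI : FiniteDimensional F F' := hfin
  exact pushforwardNormFormula_of_finite (K := K) (F := F) (F' := F') x hx

end Fermat.Agent.Gateway.Hecke
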