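import Mathlib
import Fermat.Agent.S24.Embed
import Fermat.Agent.S24.Descent

/-!
# P-GATEWAY, WP-HK1: the modular relation between `j(q)` and `j(q^d)` over `ℚ`

`exists_relation_jq d` : a nontrivial polynomial relation over `ℚ` between the formal
`q`-expansions `jq` and `qExpand ℚ d jq`.  Obtained from the analytic relation
`SymmFn.exists_relation` (product over the cosets of `Γ₀(d)`), by taking `q`-expansions and
descending the coefficients from `ℂ` to `ℚ`.
-/

set_option autoImplicit false
set_option linter.unusedSectionVars false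

noncomputable section

open ModularCurve Fermat.Agent.S24 Fermat.Agent.S24.JLevel Fermat.Agent.S24.Embed

namespace Fermat.Agent.Gateway.Hecke

/-- A ring homomorphism out of a `ℂ`-algebra that sends constants to constants commutes with
polynomial evaluation. -/
theorem ringHom_aeval_eq {P : Type*} [CommRing P] [Algebra ℂ P] (ψ : P →+* LaurentSeries ℂ)
    (hconst : ∀ c : ℂ, ψ (algebraMap ℂ P c) = HahnSeries.C c) (a : P) (Q : Polynomial ℂ) :
    ψ (Polynomial.aeval a Q) = Polynomial.aeval (ψ a) Q := by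
  rw [Polynomial.aeval_def, Polynomial.aeval_def, Polynomial.hom_eval₂]
  congr 1
  ext c
  rw [RingHom.comp_apply, hconst, algebraMap_laurentSeries_eq_single]
  rfl

/-- The analytic relation, at the level of `q`-expansions over `ℂ`. -/
theorem exists_relation_complex (d : ℕ) [NeZero d] :
    ∃ (m : ℕ) (p : Fin (m + 1) → Polynomial ℂ), (∃ i, p i ≠ 0) ∧
      ∑ i, Polynomial.aeval (coeffMap (algebraMap ℚ ℂ) jq) (p i) *
        coeffMap (algebraMap ℚ ℂ) ((qExpand ℚ d jq) ^ (i : ℕ)) = 0 := by
  have hfix : ∀ γ ∈ CongruenceSubgroup.Gamma0 d, γ • jd d = jd d :=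
    fun γ hγ => smul_jd_of_mem_Gamma0 (dvd_refl d) hγ
  obtain ⟨p, hp1, hp2⟩ := SymmFn.exists_relation (CongruenceSubgroup.Gamma0 d) (jd d) hfix
    (JD.jd_mem_growthAlg d)
  set m := (CongruenceSubgroup.Gamma0 d).index with hm
  refine ⟨m, fun i => p i, ⟨Fin.last m, ?_⟩, ?_⟩
  · intro h0
    have : p m = 0 := h0
    rw [this, map_zero] at hp1
    exact zero_ne_one hp1
  · -- transport along `psiN d`
    have hj1 : jHol ∈ PN d := by
      rw [← JD.jd_one_eq_jHol]
      exact jd_mem_PN (one_dvd d)
    have hjd : jd d ∈ PN d := jd_mem_PN (dvd_refl d)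
    let a : PN d := ⟨jHol, hj1⟩
    let b : PN d := ⟨jd d, hjd⟩
    have hrel : ∑ i ∈ Finset.range (m + 1), Polynomial.aeval a (p i) * b ^ i = 0 := by
      apply Subtype.ext
      have hval : ∀ Q : Polynomial ℂ, ((Polynomial.aeval a Q : PN d) : HolFun)
          = Polynomial.aeval jHol Q := fun Q =>
        (Polynomial.aeval_algHom_apply (PN d).val a Q).symm
      have : ((∑ i ∈ Finset.range (m + 1), Polynomial.aeval a (p i) * b ^ i : PN d) : HolFun)
          = ∑ i ∈ Finset.range (m + 1), Polynomial.aeval jHol (p i) * (jd d) ^ i := by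
        rw [← Subalgebra.coe_val, map_sum]
        refine Finset.sum_congr rfl fun i _ => ?_
        rw [map_mul, map_pow, Subalgebra.coe_val, hval]
      rw [this, hp2]
      rfl
    have himg : ∑ i ∈ Finset.range (m + 1), psiN d (Polynomial.aeval a (p i) * b ^ i) = 0 := by
      have h := map_sum (psiN d) (fun i => Polynomial.aeval a (p i) * b ^ i)
        (Finset.range (m + 1))
      rw [← h, hrel, RingHom.map_zero]
    have ha : psiN d a = coeffMap (algebraMap ℚ ℂ) jq := by
      obtain ⟨h, hh⟩ := genHyp_psiN d 1 (one_dvd d)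
      have hab : (⟨jd 1, h⟩ : PN d) = a := Subtype.ext JD.jd_one_eq_jHol
      rw [hab, qExpand_one_apply] at hh
      exact hh
    have hb : psiN d b = coeffMap (algebraMap ℚ ℂ) (qExpand ℚ d jq) := by
      obtain ⟨h, hh⟩ := genHyp_psiN d d (dvd_refl d)
      exact hh
    rw [Finset.sum_range] at himg
    rw [← himg]
    refine Finset.sum_congr rfl fun i _ => ?_
    rw [RingHom.map_mul (psiN d), RingHom.map_pow (psiN d),
      ringHom_aeval_eq (P := PN d) (psiN d) (fun c => psiN_algebraMap d c), ha, hb,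
      RingHom.map_pow (coeffMap (algebraMap ℚ ℂ))]

/-- **The modular relation over `ℚ`.** -/
theorem exists_relation_jq (d : ℕ) [NeZero d] :
    ∃ (m : ℕ) (p : Fin (m + 1) → Polynomial ℚ), (∃ i, p i ≠ 0) ∧
      ∑ i, Polynomial.aeval jq (p i) * (qExpand ℚ d jq) ^ (i : ℕ) = 0 := by
  obtain ⟨m, p, hp, hrel⟩ := exists_relation_complex d
  obtain ⟨p', hp', -, hrel'⟩ := Descent.exists_relation_of_relation_baseChange (K := ℚ) (C := ℂ)
    jq (fun i : Fin (m + 1) => (qExpand ℚ d jq) ^ (i : ℕ)) p hp hrel
  exact ⟨m, p', hp', hrel'⟩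

end Fermat.Agent.Gateway.Hecke
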