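import Mathlib
import Fermat.Prelude.Def_ModularCurve_HeckeOperatorTotal
import Fermat.Prelude.Thm_ModularCurve_coeffMap_qExpand
import Fermat.Agent.S24.TransJ
import Fermat.Agent.Gateway.Hecke.JRelation
import Fermat.Agent.Gateway.Hecke.FieldLemmas

/-!
# P-GATEWAY, WP-HK1: the function fields `F_L(M)` for a general coefficient field `L`

`FL L M := laurentBaseChange L (modularFunctionFieldFull M)`, for any field `L` of characteristic
zero (an algebra over `ℚ`).  We show:
* `FL_eq_adjoin` : `FL L M` is generated over `L` by the `jL L d`, `d ∣ M`;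
* `transcendental_gen` : the generators `gen L M hd` are transcendental over `L`;
* `isAlgebraic_gen` : they are algebraic over `L(j)`;
* `finiteDimensional_jGen` : `FL L M` is finite over `L(j)`.
-/

set_option autoImplicit false
set_option linter.unusedSectionVars false
set_option linter.style.haveILetI false

noncomputable section

open ModularCurve IntermediateField AlgebraicCurve

namespace Fermat.Agent.Gateway.Hecke

variable (L : Type*) [Field L] [Algebra ℚ L]

/-- The `q`-expansion of `j(d z)` with coefficients in `L`. -/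
def jL (d : ℕ) [NeZero d] : LaurentSeries L := coeffEmb L (qExpand ℚ d jq)

/-- The function field of `X₀(M)` over `L`. -/
abbrev FL (M : ℕ) [NeZero M] : IntermediateField L (LaurentSeries L) :=
  laurentBaseChange L (modularFunctionFieldFull M)

theorem jL_one : jL L 1 = coeffEmb L jq := by
  rw [jL, qExpand_one_apply]

theorem qExpand_jL (ℓ d : ℕ) [NeZero ℓ] [NeZero d] :
    haveI : NeZero (ℓ * d) := ⟨Nat.mul_ne_zero (NeZero.ne ℓ) (NeZero.ne d)⟩
    qExpand L ℓ (jL L d) = jL L (ℓ * d) := by
  haveI : NeZero (ℓ * d) := ⟨Nat.mul_ne_zero (NeZero.ne ℓ) (NeZero.ne d)⟩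
  show qExpand L ℓ (coeffMap (algebraMap ℚ L) (qExpand ℚ d jq)) = _
  rw [← coeffMap_qExpand, qExpand_qExpand]
  rfl

theorem coeff_jL (d : ℕ) [NeZero d] : (jL L d).coeff (-(d : ℤ)) = 1 := by
  have h : (-(d : ℤ)) = (d : ℤ) * (-1) := by ring
  rw [jL, coeffEmb_coeff, h, qExpand_coeff_mul, coeff_jq_neg_one, map_one]

theorem transcendental_jL (d : ℕ) [NeZero d] : Transcendental L (jL L d) := by
  refine Fermat.Agent.S24.TransJ.transcendental_of_coeff_ne_zero _ (n := -(d : ℤ)) ?_ ?_
  · have : 0 < d := Nat.pos_of_ne_zero (NeZero.ne d)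
    omega
  · rw [coeff_jL]
    exact one_ne_zero

variable (M : ℕ) [NeZero M]

theorem jL_mem {d : ℕ} [NeZero d] (hd : d ∣ M) : jL L d ∈ FL L M :=
  coeffEmb_mem_laurentBaseChange L (jqd_mem_full M hd)

/-- The set of generators of `FL L M`. -/
def genSetL : Set (LaurentSeries L) := {x | ∃ (d : ℕ) (_ : NeZero d), d ∣ M ∧ x = jL L d}

theorem genSetL_finite : (genSetL L M).Finite := by
  classical
  have hsub : genSetL L M ⊆ ((Nat.divisors M).image
      (fun d => if h : d = 0 then 0 else haveI : NeZero d := ⟨h⟩; jL L d) : Finset _) := by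
    rintro x ⟨d, hd0, hd, rfl⟩
    rw [Finset.coe_image]
    refine ⟨d, ?_, ?_⟩
    · rw [Finset.mem_coe, Nat.mem_divisors]
      exact ⟨hd, NeZero.ne M⟩
    · exact dif_neg (NeZero.ne d)
  exact (Finset.finite_toSet _).subset hsub

theorem coeffEmb_algebraMap (c : ℚ) :
    coeffEmb L (algebraMap ℚ (LaurentSeries ℚ) c) =
      algebraMap L (LaurentSeries L) (algebraMap ℚ L c) := by
  rw [algebraMap_laurentSeries_eq_single, algebraMap_laurentSeries_eq_single]
  exact coeffMap_single _ _ _

/-- `FL L M` is generated over `L` by the `q`-expansions of the `j(d z)`, `d ∣ M`. -/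
theorem FL_eq_adjoin : FL L M = IntermediateField.adjoin L (genSetL L M) := by
  apply le_antisymm
  · have key : ∀ y ∈ IntermediateField.adjoin ℚ (divisorExpansions M),
        coeffEmb L y ∈ IntermediateField.adjoin L (genSetL L M) := by
      intro y hy
      induction hy using IntermediateField.adjoin_induction with
      | mem x hx =>
        obtain ⟨d, hd0, hd, rfl⟩ := hx
        exact IntermediateField.subset_adjoin L _ ⟨d, hd0, hd, rfl⟩
      | algebraMap c =>
        rw [coeffEmb_algebraMap]
        exact IntermediateField.algebraMap_mem _ _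
      | add x y hx hy h1 h2 =>
        rw [map_add]
        exact add_mem h1 h2
      | inv x hx h1 =>
        rw [map_inv₀]
        exact inv_mem h1
      | mul x y hx hy h1 h2 =>
        rw [map_mul]
        exact mul_mem h1 h2
    rw [FL, laurentBaseChange, IntermediateField.adjoin_le_iff]
    rintro _ ⟨y, hy, rfl⟩
    exact key y hy
  · rw [IntermediateField.adjoin_le_iff]
    rintro _ ⟨d, hd0, hd, rfl⟩
    exact jL_mem L M hd

/-- The generator `j(d z)` of the function field, `d ∣ M`. -/
def gen {d : ℕ} [NeZero d] (hd : d ∣ M) : FL L M := ⟨jL L d, jL_mem L M hd⟩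

@[simp] theorem coe_gen {d : ℕ} [NeZero d] (hd : d ∣ M) :
    ((gen L M hd : FL L M) : LaurentSeries L) = jL L d := rfl

/-- The function `j` in the function field. -/
def jGen : FL L M := gen L M (one_dvd M)

@[simp] theorem coe_jGen : ((jGen L M : FL L M) : LaurentSeries L) = jL L 1 := rfl

theorem transcendental_gen {d : ℕ} [NeZero d] (hd : d ∣ M) :
    Transcendental L (gen L M hd) := by
  have h := transcendental_jL L d
  rw [← coe_gen L M hd] at h
  exact (transcendental_algebraMap_iff (algebraMap (FL L M) (LaurentSeries L)).injective).mp h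

theorem transcendental_jGen : Transcendental L (jGen L M) := transcendental_gen L M _

/-- `coeffEmb` commutes with polynomial evaluation. -/
theorem coeffEmb_aeval (t : LaurentSeries ℚ) (P : Polynomial ℚ) :
    coeffEmb L (Polynomial.aeval t P) =
      Polynomial.aeval (coeffEmb L t) (P.map (algebraMap ℚ L)) := by
  rw [Polynomial.aeval_def, Polynomial.aeval_def, Polynomial.hom_eval₂, Polynomial.eval₂_map]
  congr 1
  exact RingHom.ext fun c => coeffEmb_algebraMap L c

/-- The modular relation between `j(q)` and `j(q^d)`, with coefficients in `L`. -/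
theorem exists_relation_jL (d : ℕ) [NeZero d] :
    ∃ (m : ℕ) (p : Fin (m + 1) → Polynomial L), (∃ i, p i ≠ 0) ∧
      ∑ i, Polynomial.aeval (jL L 1) (p i) * (jL L d) ^ (i : ℕ) = 0 := by
  obtain ⟨m, p, ⟨i, hi⟩, hrel⟩ := exists_relation_jq d
  refine ⟨m, fun i => (p i).map (algebraMap ℚ L), ⟨i, ?_⟩, ?_⟩
  · rw [Ne, Polynomial.map_eq_zero_iff (algebraMap ℚ L).injective]
    exact hi
  · have h := congrArg (coeffEmb L) hrel
    rw [map_zero, map_sum] at h
    rw [← h]
    refine Finset.sum_congr rfl fun i _ => ?_
    rw [map_mul, map_pow, coeffEmb_aeval, jL_one]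
    rfl

/-- Each generator is algebraic over `L(j)`, inside `LaurentSeries L`. -/
theorem isAlgebraic_jL (d : ℕ) [NeZero d] : IsAlgebraic L⟮jL L 1⟯ (jL L d) := by
  obtain ⟨m, p, hp, hrel⟩ := exists_relation_jL L d
  exact isAlgebraic_of_relation (transcendental_jL L 1) p hp hrel

/-- Each generator is algebraic over `L(j)`, inside the function field. -/
theorem isAlgebraic_gen {d : ℕ} [NeZero d] (hd : d ∣ M) :
    IsAlgebraic L⟮jGen L M⟯ (gen L M hd) := by
  obtain ⟨m, p, hp, hrel⟩ := exists_relation_jL L d
  refine isAlgebraic_of_relation (transcendental_jGen L M) p hp ?_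
  apply Subtype.ext
  have hval : ∀ Q : Polynomial L, ((Polynomial.aeval (jGen L M) Q : FL L M) : LaurentSeries L)
      = Polynomial.aeval (jL L 1) Q := fun Q =>
    (Polynomial.aeval_algHom_apply (FL L M).val (jGen L M) Q).symm
  have : ((∑ i, Polynomial.aeval (jGen L M) (p i) * (gen L M hd) ^ (i : ℕ) : FL L M) :
      LaurentSeries L) = ∑ i, Polynomial.aeval (jL L 1) (p i) * (jL L d) ^ (i : ℕ) := by
    rw [← IntermediateField.coe_val, map_sum]
    refine Finset.sum_congr rfl fun i _ => ?_
    rw [map_mul, map_pow, IntermediateField.coe_val, hval]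
    rfl
  rw [this, hrel]
  rfl

/-- The set of generators inside the function field. -/
def genSetF : Set (FL L M) := {x | ∃ (d : ℕ) (_ : NeZero d) (hd : d ∣ M), x = gen L M hd}

theorem image_genSetF : (FL L M).val '' genSetF L M = genSetL L M := by
  ext x
  constructor
  · rintro ⟨_, ⟨d, hd0, hd, rfl⟩, rfl⟩
    exact ⟨d, hd0, hd, rfl⟩
  · rintro ⟨d, hd0, hd, rfl⟩
    exact ⟨gen L M hd, ⟨d, hd0, hd, rfl⟩, rfl⟩

theorem genSetF_finite : (genSetF L M).Finite := by
  have h := genSetL_finite L M
  rw [← image_genSetF] at h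
  exact h.of_finite_image ((FL L M).val.injective.injOn)

theorem adjoin_genSetF : IntermediateField.adjoin L (genSetF L M) = ⊤ := by
  apply IntermediateField.map_injective (FL L M).val
  rw [IntermediateField.adjoin_map, image_genSetF, ← FL_eq_adjoin,
    ← AlgHom.fieldRange_eq_map, IntermediateField.fieldRange_val]

/-- **`F_L(M)` is a finite extension of `L(j)`.** -/
theorem finiteDimensional_jGen : FiniteDimensional L⟮jGen L M⟯ (FL L M) :=
  finiteDimensional_of_generators (jGen L M) (genSetF L M) (genSetF_finite L M)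
    (adjoin_genSetF L M) (by
      rintro _ ⟨d, hd0, hd, rfl⟩
      exact isAlgebraic_gen L M hd)

instance instFiniteDimensional_jGen : FiniteDimensional L⟮jGen L M⟯ (FL L M) :=
  finiteDimensional_jGen L M

end Fermat.Agent.Gateway.Hecke
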