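import Fermat.Prelude.Def_ModularCurve_HeckeOperatorTotal
import Fermat.Agent.Gateway.Hecke.FunctionField
import Fermat.Agent.Gateway.Hecke.Along

/-!
# P-GATEWAY, WP-HK1: `HeckeInputsAlong L N ℓ`

For an algebraically closed field `L` of characteristic zero (an algebra over `ℚ`), all the
inputs of the Hecke correspondence `T_ℓ` on `Pic⁰` of the function field of `X₀(N)` over `L`
hold; hence `heckeOperatorAlong L N ℓ` is the genuine operator `α_* β^*`.
-/

set_option autoImplicit false
set_option linter.unusedSectionVars false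
set_option linter.style.haveILetI false

noncomputable section

open ModularCurve AlgebraicCurve IntermediateField

namespace Fermat.Agent.Gateway.Hecke

variable (L : Type*) [Field L] [Algebra ℚ L]

theorem charZero_of_ratAlgebra : CharZero L :=
  charZero_of_injective_algebraMap (algebraMap ℚ L).injective

theorem jL_congr {d d' : ℕ} [NeZero d] [NeZero d'] (h : d = d') : jL L d = jL L d' := by
  subst h
  rfl

section General

variable (N ℓ : ℕ) [NeZero N] [NeZero ℓ]

theorem heckeAlphaBar_gen {d : ℕ} [NeZero d] (hd : d ∣ N) :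
    heckeAlphaBar L N ℓ (gen L N hd) = gen L (N * ℓ) (hd.trans (dvd_mul_right N ℓ)) :=
  Subtype.ext (by rw [coe_heckeAlphaBar]; rfl)

theorem heckeAlphaBar_jGen : heckeAlphaBar L N ℓ (jGen L N) = jGen L (N * ℓ) :=
  heckeAlphaBar_gen L N ℓ (one_dvd N)

theorem heckeBetaBar_jGen :
    heckeBetaBar L N ℓ (jGen L N) = gen L (N * ℓ) (dvd_mul_left ℓ N) :=
  Subtype.ext (by
    rw [coe_heckeBetaBar, coe_jGen, coe_gen, qExpand_jL L ℓ 1]
    exact jL_congr L (mul_one ℓ))

/-- The inclusion `F_L(N) ⊆ F_L(N ℓ)` is finite. -/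
theorem finiteAlong_alpha : FiniteAlong L (heckeAlphaBar L N ℓ) :=
  finiteAlong_of_transcendental (heckeAlphaBar L N ℓ) (jGen L N)
    (by rw [heckeAlphaBar_jGen]; exact transcendental_jGen L (N * ℓ))
    (jGen L (N * ℓ)) (transcendental_jGen L (N * ℓ))

/-- The degeneracy map `q ↦ q^ℓ : F_L(N) → F_L(N ℓ)` is finite. -/
theorem finiteAlong_beta : FiniteAlong L (heckeBetaBar L N ℓ) :=
  finiteAlong_of_transcendental (heckeBetaBar L N ℓ) (jGen L N)
    (by rw [heckeBetaBar_jGen]; exact transcendental_gen L (N * ℓ) _)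
    (jGen L (N * ℓ)) (transcendental_jGen L (N * ℓ))

theorem heckeAlphaBarIntegral : HeckeAlphaBarIntegral L N ℓ :=
  isIntegral_of_finiteAlong _ (finiteAlong_alpha L N ℓ)

theorem heckeBetaBarIntegral : HeckeBetaBarIntegral L N ℓ :=
  isIntegral_of_finiteAlong _ (finiteAlong_beta L N ℓ)

end General

section AlgClosed

variable [IsAlgClosed L]

/-- The function field `F_L(M)` has principal divisors of degree zero. -/
theorem hasPrincipalDivisors_full (M : ℕ) [NeZero M] :
    HasPrincipalDivisors L (laurentBaseChange L (modularFunctionFieldFull M)) :=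
  haveI := charZero_of_ratAlgebra L
  Fermat.Agent.S24.PD.hasPrincipalDivisors (transcendental_jGen L M)

instance (priority := 100) instHasPrincipalDivisorsFull (M : ℕ) [NeZero M] :
    HasPrincipalDivisors L (laurentBaseChange L (modularFunctionFieldFull M)) :=
  hasPrincipalDivisors_full L M

/-- All places of `F_L(M)` have degree one. -/
theorem deg_eq_one_full (M : ℕ) [NeZero M]
    (v : Place L (laurentBaseChange L (modularFunctionFieldFull M))) : v.deg = 1 :=
  haveI := charZero_of_ratAlgebra L
  Fermat.Agent.S24.PD.deg_eq_one (transcendental_jGen L M) v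

variable (N ℓ : ℕ) [NeZero N] [NeZero ℓ]

theorem fundamentalIdentityAlong_alpha :
    FundamentalIdentityAlong L (heckeAlphaBar L N ℓ) (heckeAlphaBarIntegral L N ℓ) :=
  haveI := charZero_of_ratAlgebra L
  fundamentalIdentityAlong_of_finite _ _ (finiteAlong_alpha L N ℓ) (jGen L N)
    (transcendental_jGen L N)

theorem fundamentalIdentityAlong_beta :
    FundamentalIdentityAlong L (heckeBetaBar L N ℓ) (heckeBetaBarIntegral L N ℓ) :=
  haveI := charZero_of_ratAlgebra L
  fundamentalIdentityAlong_of_finite _ _ (finiteAlong_beta L N ℓ) (jGen L N)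
    (transcendental_jGen L N)

theorem normFormulaAlong_alpha :
    NormFormulaAlong L (heckeAlphaBar L N ℓ) (finiteAlong_alpha L N ℓ) :=
  haveI := charZero_of_ratAlgebra L
  normFormulaAlong_of_finite _ _ (jGen L N) (transcendental_jGen L N)

theorem normFormulaAlong_beta :
    NormFormulaAlong L (heckeBetaBar L N ℓ) (finiteAlong_beta L N ℓ) :=
  haveI := charZero_of_ratAlgebra L
  normFormulaAlong_of_finite _ _ (jGen L N) (transcendental_jGen L N)

/-- **WP-HK1.** All inputs of the Hecke correspondence hold over an algebraically closed field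
of characteristic zero. -/
theorem heckeInputsAlong : HeckeInputsAlong L N ℓ :=
  heckeInputsAlong_intro (heckeAlphaBarIntegral L N ℓ) (heckeBetaBarIntegral L N ℓ)
    (fundamentalIdentityAlong_beta L N ℓ) (finiteAlong_alpha L N ℓ) (normFormulaAlong_alpha L N ℓ)

/-- The Hecke operator is the genuine correspondence `α_* β^*`. -/
theorem heckeOperatorAlong_eq_heckePic0Bar :
    heckeOperatorAlong L N ℓ =
      heckePic0Bar (heckeAlphaBarIntegral L N ℓ) (heckeBetaBarIntegral L N ℓ)
        (fundamentalIdentityAlong_beta L N ℓ) (finiteAlong_alpha L N ℓ)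
        (normFormulaAlong_alpha L N ℓ) :=
  heckeOperatorAlong_eq _ _ _ _ _

/-- The Hecke operator on the class of a divisor of degree zero. -/
theorem heckeOperatorAlong_mk
    (D : Divisor.degZero (K := L) (F := laurentBaseChange L (modularFunctionFieldFull N))) :
    heckeOperatorAlong L N ℓ (Pic0.mk D) =
      Pic0.mk (Pic0.degZeroCorrespondence (heckeBetaBar L N ℓ) (heckeAlphaBar L N ℓ)
        (heckeBetaBarIntegral L N ℓ) (heckeAlphaBarIntegral L N ℓ)
        (fundamentalIdentityAlong_beta L N ℓ) D) := by
  rw [heckeOperatorAlong_eq_heckePic0Bar]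
  rfl

end AlgClosed

end Fermat.Agent.Gateway.Hecke
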