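import Mathlib
import Fermat.Agent.Gateway.Hecke.Coh
import Fermat.Agent.Gateway.A2.CountPE

/-!
# P-GATEWAY WP-HK4: the Hecke operator preserves `homPE`

`heckeHom` maps additive characters killing all parabolic/elliptic elements to characters with the
same property.  Proof: for `γ` parabolic/elliptic, group `ℙ¹(𝔽_l)` into orbits of `γ̄`; over an
orbit of length `k` through `x`, the product of the `coc y γ` is `coc x (γ ^ k)`, which is
conjugate to `γ ^ k` in `GL₂(ℝ)`, hence has the same trace, and powers of parabolic/elliptic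
elements are parabolic/elliptic.
-/

set_option autoImplicit false
set_option linter.unusedSectionVars false

namespace Fermat.Agent.Gateway.HeckeCoh

open P2MW.S_ModularForm_heckeT_slash_eq_self_of_mem_Gamma0.ModularForm.HeckeSlashInvariance
open CongruenceSubgroup Matrix.SpecialLinearGroup
open scoped MatrixGroups
open Fermat.Agent.Gateway.A2

/-- If the sums of `ψ` over all orbits of `g` (each orbit counted once) vanish, then the total
sum of `ψ` vanishes. -/
theorem sum_eq_zero_of_orbit_sums {G X A : Type*} [Group G] [MulAction G X] [Fintype X]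
    [AddCommMonoid A] (g : G) (ψ : X → A)
    (h : ∀ x : X, ∑ i ∈ Finset.range (Function.minimalPeriod (g • ·) x), ψ (g ^ i • x) = 0) :
    ∑ x, ψ x = 0 := by
  classical
  let e := MulAction.selfEquivSigmaOrbits (Subgroup.zpowers g) X
  have hfin : ∀ ω : MulAction.orbitRel.Quotient (Subgroup.zpowers g) X,
      Fintype (MulAction.orbit (Subgroup.zpowers g) ω.out) := fun ω => Fintype.ofFinite _
  rw [← e.symm.sum_comp, Fintype.sum_sigma]
  refine Finset.sum_eq_zero fun ω _ => ?_
  have he : ∀ y : MulAction.orbit (Subgroup.zpowers g) ω.out, e.symm ⟨ω, y⟩ = y.1 := by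
    intro y
    rfl
  simp_rw [he]
  have hne : NeZero (Function.minimalPeriod (g • ·) ω.out) := inferInstance
  rw [← (MulAction.orbitZPowersEquiv g ω.out).symm.sum_comp]
  have h2 : ∀ k : ZMod (Function.minimalPeriod (g • ·) ω.out),
      (((MulAction.orbitZPowersEquiv g ω.out).symm k :
        MulAction.orbit (Subgroup.zpowers g) ω.out) : X) = g ^ k.val • ω.out := by
    intro k
    rw [MulAction.orbitZPowersEquiv_symm_apply]
    show ((⟨g, Subgroup.mem_zpowers g⟩ : Subgroup.zpowers g) ^ (ZMod.cast k : ℤ) : Subgroup.zpowers g) •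
      (ω.out : X) = _
    rw [Subgroup.smul_def]
    have : (ZMod.cast k : ℤ) = ((k.val : ℕ) : ℤ) := by
      rw [ZMod.natCast_val]
    simp only [SubgroupClass.coe_zpow]
    rw [this, zpow_natCast]
  simp_rw [h2]
  rw [← sum_range_eq_sum_zmod (fun i => ψ (g ^ i • ω.out))]
  exact h ω.out

/-- Cayley–Hamilton for `SL(2, ℤ)`: `γ ^ 2 = tr γ • γ - 1`. -/
theorem sl2_sq (g : SL(2, ℤ)) :
    (g : Matrix (Fin 2) (Fin 2) ℤ) * (g : Matrix (Fin 2) (Fin 2) ℤ) =
      (g : Matrix (Fin 2) (Fin 2) ℤ).trace • (g : Matrix (Fin 2) (Fin 2) ℤ) - 1 := by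
  have hdet : g 0 0 * g 1 1 - g 0 1 * g 1 0 = 1 := by
    have := g.det_coe
    rwa [Matrix.det_fin_two] at this
  ext i j
  rw [Matrix.sub_apply, Matrix.smul_apply, smul_eq_mul, Matrix.mul_apply, Fin.sum_univ_two,
    Matrix.trace_fin_two]
  fin_cases i <;> fin_cases j <;>
    simp only [Fin.zero_eta, Fin.mk_one, Fin.isValue, Matrix.one_apply_eq, Matrix.one_apply_ne,
      ne_eq, zero_ne_one, one_ne_zero, not_false_eq_true, sub_zero] <;>
    first | ring1 | linear_combination (-1 : ℤ) * hdet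

/-- The trace sequence `s k = tr (γ ^ k)`. -/
def trPow (g : SL(2, ℤ)) (k : ℕ) : ℤ := ((g ^ k : SL(2, ℤ)) : Matrix (Fin 2) (Fin 2) ℤ).trace

theorem trPow_zero (g : SL(2, ℤ)) : trPow g 0 = 2 := by
  simp [trPow]

theorem trPow_one (g : SL(2, ℤ)) : trPow g 1 = (g : Matrix (Fin 2) (Fin 2) ℤ).trace := by
  simp [trPow]

theorem trPow_succ_succ (g : SL(2, ℤ)) (k : ℕ) :
    trPow g (k + 2) = (g : Matrix (Fin 2) (Fin 2) ℤ).trace * trPow g (k + 1) - trPow g k := by
  unfold trPow
  have h1 : ((g ^ (k + 2) : SL(2, ℤ)) : Matrix (Fin 2) (Fin 2) ℤ) =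
      (g : Matrix (Fin 2) (Fin 2) ℤ).trace • ((g ^ (k + 1) : SL(2, ℤ)) : Matrix (Fin 2) (Fin 2) ℤ)
        - ((g ^ k : SL(2, ℤ)) : Matrix (Fin 2) (Fin 2) ℤ) := by
    rw [pow_add, Matrix.SpecialLinearGroup.coe_mul, pow_two, Matrix.SpecialLinearGroup.coe_mul,
      sl2_sq, pow_succ, Matrix.SpecialLinearGroup.coe_mul, Matrix.mul_sub, Matrix.mul_smul,
      Matrix.mul_one]
  rw [h1, Matrix.trace_sub, Matrix.trace_smul, smul_eq_mul]

theorem trPow_invariant (g : SL(2, ℤ)) (k : ℕ) :
    trPow g k ^ 2 - (g : Matrix (Fin 2) (Fin 2) ℤ).trace * trPow g k * trPow g (k + 1)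
      + trPow g (k + 1) ^ 2 = 4 - (g : Matrix (Fin 2) (Fin 2) ℤ).trace ^ 2 := by
  induction k with
  | zero => rw [trPow_zero, zero_add, trPow_one]; ring
  | succ k ih => rw [trPow_succ_succ]; linear_combination ih

theorem trPow_sq_le (g : SL(2, ℤ)) (hg : IsPE g) (k : ℕ) : trPow g k ^ 2 ≤ 4 := by
  unfold IsPE at hg
  set t := (g : Matrix (Fin 2) (Fin 2) ℤ).trace with ht
  induction k with
  | zero => rw [trPow_zero]; norm_num
  | succ k ih =>
    have hinv := trPow_invariant g k
    rw [← ht] at hinv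
    rcases lt_or_eq_of_le hg with hlt | heq
    · -- `t ^ 2 < 4`
      have h3 : t ^ 2 ≤ 3 := by omega
      nlinarith [sq_nonneg (2 * trPow g k - t * trPow g (k + 1))]
    · -- `t ^ 2 = 4`
      have h4 : (2 * trPow g (k + 1) - t * trPow g k) ^ 2 = 0 := by
        nlinarith [hinv, heq]
      have h5 : 2 * trPow g (k + 1) = t * trPow g k := by
        have := pow_eq_zero_iff (n := 2) (by norm_num) |>.mp h4
        linarith
      nlinarith [h5, heq, ih]

/-- Powers of parabolic/elliptic elements are parabolic/elliptic. -/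
theorem isPE_pow {g : SL(2, ℤ)} (hg : IsPE g) (k : ℕ) : IsPE (g ^ k) :=
  trPow_sq_le g hg k


/-- The trace of `mapGL ℝ g` is the trace of `g`. -/
theorem trace_mapGL (g : SL(2, ℤ)) :
    ((mapGL ℝ g : GL (Fin 2) ℝ) : Matrix (Fin 2) (Fin 2) ℝ).trace =
      (((g : Matrix (Fin 2) (Fin 2) ℤ).trace : ℤ) : ℝ) := by
  simp [Matrix.trace_fin_two]

/-- If `H * γ = g * H` in `GL₂(ℝ)` then `g` is parabolic/elliptic iff `γ` is. -/
theorem isPE_of_conj {H : GL (Fin 2) ℝ} {gam g : SL(2, ℤ)}
    (h : H * mapGL ℝ gam = mapGL ℝ g * H) (hgam : IsPE gam) : IsPE g := by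
  have h1 : mapGL ℝ g = H * mapGL ℝ gam * H⁻¹ := by
    rw [h, mul_inv_cancel_right]
  have h2 : ((mapGL ℝ g : GL (Fin 2) ℝ) : Matrix (Fin 2) (Fin 2) ℝ).trace =
      ((mapGL ℝ gam : GL (Fin 2) ℝ) : Matrix (Fin 2) (Fin 2) ℝ).trace := by
    rw [h1]
    exact Matrix.trace_units_conj H _
  rw [trace_mapGL, trace_mapGL] at h2
  have h3 : (g : Matrix (Fin 2) (Fin 2) ℤ).trace = (gam : Matrix (Fin 2) (Fin 2) ℤ).trace := by
    exact_mod_cast h2
  unfold IsPE at hgam ⊢
  rw [h3]
  exact hgam

variable (N l : ℕ) [NeZero N] [Fact l.Prime] (hlN : ¬ l ∣ N)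

theorem redMatrix_pow (g : SL(2, ℤ)) (k : ℕ) : redMatrix l (g ^ k) = redMatrix l g ^ k := by
  induction k with
  | zero => rw [pow_zero, pow_zero, redMatrix_one]
  | succ k ih => rw [pow_succ', redMatrix_mul, ih, pow_succ]

/-- The value of an additive character on `coc x (γ ^ k)` is the sum of its values on the
`coc` along the orbit of `x`. -/
theorem map_coc_pow {A : Type*} [AddCommGroup A] (φ : Additive (Gamma0 N) →+ A)
    (x : OnePoint (ZMod l)) (gam : Gamma0 N) (k : ℕ) :
    φ (Additive.ofMul (coc N l hlN x (gam ^ k))) =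
      ∑ i ∈ Finset.range k,
        φ (Additive.ofMul (coc N l hlN (redMatrix l (gam : SL(2, ℤ)) ^ i • x) gam)) := by
  induction k with
  | zero => simp [coc_one]
  | succ k ih =>
    rw [pow_succ, coc_mul, ofMul_mul, map_add, ih, Finset.sum_range_succ, Subgroup.coe_pow,
      redMatrix_pow]

theorem heckeHom_mem_homPE {R : Type*} [Semiring R] {A : Type*} [AddCommGroup A] [Module R A]
    {φ : Additive (Gamma0 N) →+ A}
    (hφ : φ ∈ homPE R (Gamma0 N) A) : heckeHom N l hlN A φ ∈ homPE R (Gamma0 N) A := by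
  intro gam hgam
  rw [heckeHom_apply]
  refine sum_eq_zero_of_orbit_sums (redMatrix l (gam : SL(2, ℤ)))
    (fun x => φ (Additive.ofMul (coc N l hlN x gam))) fun x => ?_
  set k := Function.minimalPeriod (redMatrix l (gam : SL(2, ℤ)) • ·) x with hk
  rw [← map_coc_pow]
  apply hφ
  have hper : redMatrix l (gam : SL(2, ℤ)) ^ k • x = x := by
    have h := Function.isPeriodicPt_minimalPeriod (redMatrix l (gam : SL(2, ℤ)) • ·) x
    have h2 : (redMatrix l (gam : SL(2, ℤ)) • ·)^[k] x = x := h
    rwa [smul_iterate] at h2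
  have hspec := coc_spec N l hlN x (gam ^ k)
  rw [Subgroup.coe_pow, redMatrix_pow, hper] at hspec
  exact isPE_of_conj hspec (isPE_pow hgam k)

theorem heckeHom_smul {R : Type*} [Semiring R] {A : Type*} [AddCommGroup A] [Module R A]
    (c : R) (φ : Additive (Gamma0 N) →+ A) :
    heckeHom N l hlN A (c • φ) = c • heckeHom N l hlN A φ := by
  refine AddMonoidHom.ext fun gam => ?_
  obtain ⟨gam, rfl⟩ := Additive.ofMul.surjective gam
  rw [AddMonoidHom.smul_apply, heckeHom_apply, heckeHom_apply, Finset.smul_sum]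
  rfl

/-- The Hecke operator `T_l` on `homPE R Γ₀(N) B`, as an `R`-linear map. -/
noncomputable def heckeCohR (R : Type*) [Semiring R] (B : Type*) [AddCommGroup B] [Module R B] :
    homPE R (Gamma0 N) B →ₗ[R] homPE R (Gamma0 N) B where
  toFun φ := ⟨heckeHom N l hlN B φ.1, heckeHom_mem_homPE N l hlN φ.2⟩
  map_add' φ ψ := by
    apply Subtype.ext
    simp
  map_smul' c φ := by
    apply Subtype.ext
    simp [heckeHom_smul]

theorem heckeCohR_coe (R : Type*) [Semiring R] (B : Type*) [AddCommGroup B] [Module R B]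
    (φ : homPE R (Gamma0 N) B) :
    (heckeCohR N l hlN R B φ : Additive (Gamma0 N) →+ B) = heckeHom N l hlN B φ.1 := rfl

/-- The Hecke operator `T_l` on `homPE ℤ Γ₀(N) A`. -/
noncomputable def heckeCoh (A : Type*) [AddCommGroup A] :
    homPE ℤ (Gamma0 N) A →ₗ[ℤ] homPE ℤ (Gamma0 N) A :=
  heckeCohR N l hlN ℤ A

theorem heckeCoh_coe (A : Type*) [AddCommGroup A] (φ : homPE ℤ (Gamma0 N) A) :
    (heckeCoh N l hlN A φ : Additive (Gamma0 N) →+ A) = heckeHom N l hlN A φ.1 := rfl

/-! ### The multiplicative twin -/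

/-- The Hecke operator on multiplicative characters: `(heckeCharHom χ) γ = ∏ x, χ (coc x γ)`. -/
noncomputable def heckeCharHom (C : Type*) [CommGroup C] :
    (Gamma0 N →* C) →* (Gamma0 N →* C) where
  toFun χ :=
    { toFun := fun gam => ∏ x : OnePoint (ZMod l), χ (coc N l hlN x gam)
      map_one' := by simp [coc_one]
      map_mul' := by
        intro a b
        simp_rw [coc_mul, map_mul, Finset.prod_mul_distrib]
        congr 1
        exact Equiv.prod_comp (MulAction.toPerm (redMatrix l (a : SL(2, ℤ))))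
          (fun y => χ (coc N l hlN y b)) }
  map_one' := by
    ext gam
    simp
  map_mul' := by
    intro χ ψ
    ext gam
    simp [Finset.prod_mul_distrib]

theorem heckeCharHom_apply (C : Type*) [CommGroup C] (χ : Gamma0 N →* C) (gam : Gamma0 N) :
    heckeCharHom N l hlN C χ gam = ∏ x : OnePoint (ZMod l), χ (coc N l hlN x gam) := rfl

/-- Compatibility of `heckeCharHom` with `heckeHom` under `Additive`. -/
theorem toAdditive_heckeCharHom (C : Type*) [CommGroup C] (χ : Gamma0 N →* C) :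
    MonoidHom.toAdditive (heckeCharHom N l hlN C χ) =
      heckeHom N l hlN (Additive C) (MonoidHom.toAdditive χ) := by
  ext gam
  rfl

/-- Compatibility with homomorphisms of the coefficient group. -/
theorem heckeCharHom_comp {C D : Type*} [CommGroup C] [CommGroup D] (f : C →* D)
    (χ : Gamma0 N →* C) :
    heckeCharHom N l hlN D (f.comp χ) = f.comp (heckeCharHom N l hlN C χ) := by
  ext gam
  simp [heckeCharHom_apply, map_prod]

theorem heckeCharHom_mem_charPE {C : Type*} [CommGroup C] {χ : Gamma0 N →* C}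
    (hχ : χ ∈ Count.charPE (Gamma0 N) C) :
    heckeCharHom N l hlN C χ ∈ Count.charPE (Gamma0 N) C := by
  have h1 : MonoidHom.toAdditive χ ∈ homPE ℤ (Gamma0 N) (Additive C) := by
    intro gam hgam
    exact congrArg Additive.ofMul (hχ gam hgam)
  have h2 := heckeHom_mem_homPE N l hlN h1
  rw [← toAdditive_heckeCharHom] at h2
  intro gam hgam
  exact congrArg Additive.toMul (h2 gam hgam)

/-- The Hecke operator `T_l` on multiplicative characters killing parabolic/elliptic elements. -/
noncomputable def heckeChar (C : Type*) [CommGroup C] :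
    Count.charPE (Gamma0 N) C →* Count.charPE (Gamma0 N) C where
  toFun χ := ⟨heckeCharHom N l hlN C χ.1, heckeCharHom_mem_charPE N l hlN χ.2⟩
  map_one' := by
    apply Subtype.ext
    simp
  map_mul' χ ψ := by
    apply Subtype.ext
    simp

theorem heckeChar_coe (C : Type*) [CommGroup C] (χ : Count.charPE (Gamma0 N) C) :
    (heckeChar N l hlN C χ : Gamma0 N →* C) = heckeCharHom N l hlN C χ.1 := rfl

theorem heckeChar_apply (C : Type*) [CommGroup C] (χ : Count.charPE (Gamma0 N) C)
    (gam : Gamma0 N) :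
    (heckeChar N l hlN C χ : Gamma0 N →* C) gam =
      ∏ x : OnePoint (ZMod l), (χ : Gamma0 N →* C) (coc N l hlN x gam) := rfl

/-- Compatibility of `heckeChar` and `heckeCohR` under `charPEEquiv`. -/
theorem charPEEquiv_heckeChar (C : Type*) [CommGroup C] [IsCyclic C] (n : ℕ)
    (hn : Nat.card C = n) (χ : Count.charPE (Gamma0 N) C) :
    Count.charPEEquiv (Gamma0 N) C n hn (heckeChar N l hlN C χ) =
      heckeCohR N l hlN (ZMod n) (ZMod n) (Count.charPEEquiv (Gamma0 N) C n hn χ) := by
  subst hn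
  apply Subtype.ext
  refine AddMonoidHom.ext fun gam => ?_
  obtain ⟨gam, rfl⟩ := Additive.ofMul.surjective gam
  rw [heckeCohR_coe, heckeHom_apply]
  show Multiplicative.toAdd ((zmodCyclicMulEquiv (inferInstance : IsCyclic C)).symm
      (∏ x : OnePoint (ZMod l), (χ : Gamma0 N →* C) (coc N l hlN x gam))) =
    ∑ x : OnePoint (ZMod l), Multiplicative.toAdd
      ((zmodCyclicMulEquiv (inferInstance : IsCyclic C)).symm
        ((χ : Gamma0 N →* C) (coc N l hlN x gam)))
  rw [map_prod, toAdd_prod]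

end Fermat.Agent.Gateway.HeckeCoh
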