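import Mathlib
import Fermat.Agent.Gateway.BaseChange.Fixed
import Fermat.Agent.Gateway.Hecke.Inputs
import Fermat.Agent.Gateway.Kummer.HeckeRed
import Fermat.Prelude.Thm_ModularCurve_coeffMap_qExpand

/-!
# P-GATEWAY WP-DICT [G5] (helper20): norms along `heckeAlphaBar` commute with base change

For fields `K ⊆ L` (think `K = ℚ̄`, `L = ℂ`) let `ι_M : F_K(M) → F_L(M)` be the coefficientwise
embedding of the modular function fields.  Then

* `iotaFF_normAlong` : `ι_N (Norm_{α_K} y) = Norm_{α_L} (ι_{Nℓ} y)`;
* `iotaFF_heckeFun`  : `ι_N (heckeFun K N ℓ u) = heckeFun L N ℓ (ι_N u)`;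
* `normQExpFormula_of_baseChange` : the `q`-expansion norm formula (C1) over `L` implies the one
  over `K`.

The proof is purely algebraic: a basis of `F_K(Nℓ)` over `F_K(N)` is carried by `ι` to a basis of
`F_L(Nℓ)` over `F_L(N)` (linear disjointness through the `slice` functionals of
`BaseChange/Fixed.lean`; spanning because the span is a finite dimensional subalgebra), and the
norm is the determinant of the multiplication matrix.
-/

set_option autoImplicit false
set_option maxHeartbeats 400000
set_option linter.style.haveILetI false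
set_option linter.unusedSectionVars false

open ModularCurve AlgebraicCurve

namespace Fermat.Agent.Gateway.Hecke.NormBC

open Fermat.Agent.Gateway.BaseChange

/-- Norms commute with a "base change" carrying a basis to a basis. -/
theorem norm_map_of_basis {E0 E1 F0 F1 : Type*} [CommRing E0] [CommRing E1] [Algebra E0 E1]
    [CommRing F0] [CommRing F1] [Algebra F0 F1] (i0 : E0 →+* F0) (i1 : E1 →+* F1)
    (hcompat : ∀ e, i1 (algebraMap E0 E1 e) = algebraMap F0 F1 (i0 e))
    {ι : Type*} [Fintype ι] [DecidableEq ι] (b : Module.Basis ι E0 E1) (b' : Module.Basis ι F0 F1)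
    (hb : ∀ j, b' j = i1 (b j)) (y : E1) :
    Algebra.norm F0 (i1 y) = i0 (Algebra.norm E0 y) := by
  rw [Algebra.norm_eq_matrix_det b', Algebra.norm_eq_matrix_det b, RingHom.map_det]
  congr 1
  ext i j
  rw [RingHom.mapMatrix_apply, Matrix.map_apply, Algebra.leftMulMatrix_eq_repr_mul,
    Algebra.leftMulMatrix_eq_repr_mul]
  have h1 : y * b j = ∑ k, (b.repr (y * b j) k) • b k := (b.sum_repr _).symm
  have h2 : i1 y * b' j = ∑ k, (i0 (b.repr (y * b j) k)) • b' k := by
    rw [hb, ← map_mul, h1, map_sum]
    refine Finset.sum_congr rfl fun k _ => ?_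
    rw [Algebra.smul_def, map_mul, hcompat, hb, Algebra.smul_def]
    congr 2
    rw [← h1]
  rw [h2, b'.repr_sum_self]

variable {K L : Type*} [Field K] [Field L] [Algebra K L]
variable {E0 E1 : IntermediateField K (LaurentSeries K)}
  {F0 F1 : IntermediateField L (LaurentSeries L)}

/-- every element of `F0` is a quotient `a / d` of elements of the span ring with `d ≠ 0`. -/
theorem exists_mul_eq (h0 : IsBC E0 F0) (x : F0) :
    ∃ a ∈ spanRing L E0, ∃ d ∈ spanRing L E0, d ≠ 0 ∧ (x : LaurentSeries L) * d = a := by
  obtain ⟨a, ha, d, hd, hx⟩ := h0.exists_div x.2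
  by_cases hd0 : d = 0
  · refine ⟨0, zero_mem _, 1, one_mem _, one_ne_zero, ?_⟩
    rw [← hx, hd0, div_zero, zero_mul]
  · exact ⟨a, ha, d, hd, hd0, by rw [← hx, div_mul_cancel₀ _ hd0]⟩

/-- **Linear disjointness**: a family of `E1` which is linearly independent over `E0` stays
linearly independent over `F0` after applying `ι`. -/
theorem linearIndependent_iotaF (hE : E0 ≤ E1) (hF : F0 ≤ F1) (h0 : IsBC E0 F0) (h1 : IsBC E1 F1)
    {ι : Type*} [Fintype ι] (b : ι → E1)
    (hb : letI := (IntermediateField.inclusion hE).toRingHom.toAlgebra; LinearIndependent E0 b) :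
    letI := (IntermediateField.inclusion hF).toRingHom.toAlgebra
    LinearIndependent F0 (fun j => h1.iotaF (b j)) := by
  classical
  letI algE : Algebra E0 E1 := (IntermediateField.inclusion hE).toRingHom.toAlgebra
  letI algF : Algebra F0 F1 := (IntermediateField.inclusion hF).toRingHom.toAlgebra
  rw [Fintype.linearIndependent_iff]
  intro g hg
  -- numerators and denominators
  choose a ha d hd hd0 hga using fun j => exists_mul_eq h0 (g j)
  set D : LaurentSeries L := ∏ j, d j with hD
  have hD0 : D ≠ 0 := Finset.prod_ne_zero_iff.mpr fun j _ => hd0 j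
  set c : ι → LaurentSeries L := fun j => (g j : LaurentSeries L) * D with hc
  have hcmem : ∀ j, c j ∈ spanRing L E0 := by
    intro j
    have : c j = a j * ∏ i ∈ Finset.univ.erase j, d i := by
      rw [hc, hD]
      simp only
      rw [← Finset.mul_prod_erase Finset.univ d (Finset.mem_univ j), ← mul_assoc, hga]
    rw [this]
    exact mul_mem (ha j) (Subring.prod_mem _ fun i _ => hd i)
  -- the relation in `L((q))`
  have hrel : ∑ j, c j * iota K L ((b j : E1) : LaurentSeries K) = 0 := by
    have h2 := congrArg (fun x : F1 => (x : LaurentSeries L)) hg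
    simp only [IntermediateField.coe_sum, ZeroMemClass.coe_zero] at h2
    have h3 : ∀ j, ((g j • h1.iotaF (b j) : F1) : LaurentSeries L)
        = (g j : LaurentSeries L) * iota K L ((b j : E1) : LaurentSeries K) := fun j => rfl
    simp only [h3] at h2
    calc ∑ j, c j * iota K L ((b j : E1) : LaurentSeries K)
        = D * ∑ j, (g j : LaurentSeries L) * iota K L ((b j : E1) : LaurentSeries K) := by
          rw [Finset.mul_sum]
          refine Finset.sum_congr rfl fun j _ => ?_
          simp only [hc]; ring
      _ = 0 := by rw [h2, mul_zero]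
  -- slice
  have hslice : ∀ (φ : L →ₗ[K] K) (j : ι), slice φ (c j) = 0 := by
    intro φ
    have h4 : ∑ j, slice φ (c j) * ((b j : E1) : LaurentSeries K) = 0 := by
      have := congrArg (slice φ) hrel
      rw [map_sum, map_zero] at this
      rw [← this]
      refine Finset.sum_congr rfl fun j _ => ?_
      rw [slice_mul_iota_of_mem_spanRing φ (hcmem j)]
    set e : ι → E0 := fun j => ⟨slice φ (c j), slice_mem_of_mem_spanRing φ (hcmem j)⟩ with he
    have h5 : ∑ j, e j • b j = 0 := by
      apply Subtype.ext
      rw [IntermediateField.coe_sum]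
      exact h4
    have h6 := (Fintype.linearIndependent_iff.mp hb) e h5
    intro j
    exact congrArg (fun x : E0 => (x : LaurentSeries K)) (h6 j)
  intro j
  have hcj : c j = 0 := eq_zero_of_slice_eq_zero fun φ => hslice φ j
  have : (g j : LaurentSeries L) = 0 := by
    rcases mul_eq_zero.mp hcj with h | h
    · exact h
    · exact absurd h hD0
  exact Subtype.ext this

/-- compatibility of `ι` with the inclusions -/
theorem iotaF_inclusion (hE : E0 ≤ E1) (hF : F0 ≤ F1) (h0 : IsBC E0 F0) (h1 : IsBC E1 F1)
    (e : E0) : h1.iotaF (IntermediateField.inclusion hE e) =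
      IntermediateField.inclusion hF (h0.iotaF e) := by
  apply Subtype.ext
  rw [IsBC.coe_iotaF, IntermediateField.coe_inclusion, IntermediateField.coe_inclusion,
    IsBC.coe_iotaF]

/-- **Spanning**: a spanning family of `E1` over `E0` spans `F1` over `F0` after applying `ι`. -/
theorem span_iotaF_eq_top (hE : E0 ≤ E1) (hF : F0 ≤ F1) (h0 : IsBC E0 F0) (h1 : IsBC E1 F1)
    {ι : Type*} [Fintype ι] (b : ι → E1)
    (hb : letI := (IntermediateField.inclusion hE).toRingHom.toAlgebra;
      Submodule.span E0 (Set.range b) = ⊤) :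
    letI := (IntermediateField.inclusion hF).toRingHom.toAlgebra
    Submodule.span F0 (Set.range fun j => h1.iotaF (b j)) = ⊤ := by
  classical
  letI algE : Algebra E0 E1 := (IntermediateField.inclusion hE).toRingHom.toAlgebra
  letI algF : Algebra F0 F1 := (IntermediateField.inclusion hF).toRingHom.toAlgebra
  set V : Submodule F0 F1 := Submodule.span F0 (Set.range fun j => h1.iotaF (b j)) with hV
  -- `ι y ∈ V` for all `y`
  have hι : ∀ y : E1, h1.iotaF y ∈ V := by
    intro y
    have hy : y ∈ Submodule.span E0 (Set.range b) := by rw [hb]; trivial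
    induction hy using Submodule.span_induction with
    | mem x hx =>
        obtain ⟨j, rfl⟩ := hx
        exact Submodule.subset_span ⟨j, rfl⟩
    | zero => rw [map_zero]; exact zero_mem _
    | add x y _ _ hx hy => rw [map_add]; exact add_mem hx hy
    | smul e x _ hx =>
        have : h1.iotaF (e • x) = (h0.iotaF e) • h1.iotaF x := by
          rw [Algebra.smul_def, Algebra.smul_def, map_mul]
          congr 1
        rw [this]
        exact Submodule.smul_mem _ _ hx
  -- the subalgebra generated by the image of `ι`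
  set A : Subalgebra F0 F1 := Algebra.adjoin F0 (Set.range h1.iotaF) with hA
  have hAV : Subalgebra.toSubmodule A ≤ V := by
    rw [hA, Algebra.adjoin_eq_span]
    have hcl : Submonoid.closure (Set.range h1.iotaF) =
        MonoidHom.mrange h1.iotaF.toMonoidHom := by
      have : Set.range h1.iotaF = (MonoidHom.mrange h1.iotaF.toMonoidHom : Set F1) := by
        ext x; simp
      rw [this, Submonoid.closure_eq]
    rw [hcl, Submodule.span_le]
    rintro _ ⟨y, rfl⟩
    exact hι y
  -- `A` is finite dimensional over `F0`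
  have hVfg : V.FG := by
    rw [hV]
    exact Submodule.fg_span (Set.finite_range _)
  have hAfg : (Subalgebra.toSubmodule A).FG := Submodule.FG.of_le hVfg hAV
  -- `A` is closed under inverses
  have hAinv : ∀ x : F1, x ∈ A → x⁻¹ ∈ A := by
    intro x hx
    have hint : IsIntegral F0 x := IsIntegral.of_mem_of_fg A hAfg x hx
    exact A.inv_mem_of_algebraic (x := ⟨x, hx⟩) hint.isAlgebraic
  -- elements of the span ring lie in `A`
  have hspan : ∀ s ∈ spanRing L E1, ∃ x : F1, x ∈ A ∧ (x : LaurentSeries L) = s := by
    intro s hs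
    rw [mem_spanRing_iff] at hs
    induction hs using AddSubmonoid.closure_induction with
    | mem x hx =>
        obtain ⟨c, z, hz, rfl⟩ := hx
        refine ⟨algebraMap F0 F1 (algebraMap L F0 c) * h1.iotaF ⟨z, hz⟩, ?_, rfl⟩
        exact A.mul_mem (A.algebraMap_mem _) (Algebra.subset_adjoin ⟨_, rfl⟩)
    | zero => exact ⟨0, A.zero_mem, rfl⟩
    | add x y _ _ hx hy =>
        obtain ⟨x', hx', rfl⟩ := hx
        obtain ⟨y', hy', rfl⟩ := hy
        exact ⟨x' + y', A.add_mem hx' hy', rfl⟩
  -- hence `A = ⊤`
  have htop : ∀ x : F1, x ∈ A := by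
    intro x
    obtain ⟨a, ha, d, hd, hx⟩ := h1.exists_div x.2
    obtain ⟨a', ha', rfl⟩ := hspan a ha
    obtain ⟨d', hd', rfl⟩ := hspan d hd
    have : x = a' * d'⁻¹ := by
      apply Subtype.ext
      rw [← hx, div_eq_mul_inv]
      rfl
    rw [this]
    exact A.mul_mem ha' (hAinv d' hd')
  rw [eq_top_iff]
  intro x _
  exact hAV (htop x)


/-- **Norm base change** for intermediate fields of Laurent series. -/
theorem iotaF_normAlong (hE : E0 ≤ E1) (hF : F0 ≤ F1) (h0 : IsBC E0 F0) (h1 : IsBC E1 F1)
    (hfin : FiniteAlong K (IntermediateField.inclusion hE)) (y : E1) :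
    h0.iotaF (Kummer.normAlong (IntermediateField.inclusion hE) y) =
      Kummer.normAlong (IntermediateField.inclusion hF) (h1.iotaF y) := by
  classical
  letI algE : Algebra E0 E1 := (IntermediateField.inclusion hE).toRingHom.toAlgebra
  letI algF : Algebra F0 F1 := (IntermediateField.inclusion hF).toRingHom.toAlgebra
  haveI hfin' : Module.Finite E0 E1 := hfin
  haveI : Module.Free E0 E1 := Module.Free.of_divisionRing E0 E1
  set b := Module.finBasis E0 E1 with hb
  have hli : LinearIndependent F0 (fun j => h1.iotaF (b j)) :=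
    linearIndependent_iotaF hE hF h0 h1 (fun j => b j) b.linearIndependent
  have hsp : ⊤ ≤ Submodule.span F0 (Set.range fun j => h1.iotaF (b j)) :=
    (span_iotaF_eq_top hE hF h0 h1 (fun j => b j) b.span_eq).ge
  set b' := Module.Basis.mk hli hsp with hb'
  have key := norm_map_of_basis h0.iotaF h1.iotaF
    (fun e => iotaF_inclusion hE hF h0 h1 e) b b'
    (fun j => by rw [hb', Module.Basis.mk_apply]) y
  exact key.symm

/-! ### The modular function fields -/

section Modular

open Fermat.Agent.Gateway.Kummer

variable (K L : Type*) [Field K] [Field L] [Algebra K L] [Algebra ℚ K] [Algebra ℚ L]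
  [IsScalarTower ℚ K L]

/-- the coefficientwise embedding `F_K(M) → F_L(M)` -/
noncomputable def iotaFF (M : ℕ) : FF K M →+* FF L M :=
  (isBC_laurentBaseChange K L (modularFunctionFieldFull M)).iotaF

@[simp] theorem coe_iotaFF (M : ℕ) (x : FF K M) :
    ((iotaFF K L M x : FF L M) : LaurentSeries L) = iota K L (x : LaurentSeries K) := rfl

theorem iotaFF_injective (M : ℕ) : Function.Injective (iotaFF K L M) :=
  (iotaFF K L M).injective

variable (N ℓ : ℕ) [NeZero N] [NeZero ℓ]

theorem iotaFF_heckeAlphaBar (x : FF K N) :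
    iotaFF K L (N * ℓ) (heckeAlphaBar K N ℓ x) = heckeAlphaBar L N ℓ (iotaFF K L N x) := by
  apply Subtype.ext
  rw [coe_iotaFF, coe_heckeAlphaBar, coe_heckeAlphaBar, coe_iotaFF]

theorem iotaFF_heckeBetaBar (x : FF K N) :
    iotaFF K L (N * ℓ) (heckeBetaBar K N ℓ x) = heckeBetaBar L N ℓ (iotaFF K L N x) := by
  apply Subtype.ext
  rw [coe_iotaFF, coe_heckeBetaBar, coe_heckeBetaBar, coe_iotaFF]
  exact ModularCurve.coeffMap_qExpand (algebraMap K L) ℓ _

theorem FF_le (M : Type*) [Field M] [Algebra ℚ M] : FF M N ≤ FF M (N * ℓ) := by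
  intro x hx
  have := (heckeAlphaBar M N ℓ ⟨x, hx⟩).2
  rwa [coe_heckeAlphaBar] at this

/-- **[G5]** the norm along `heckeAlphaBar` commutes with base change. -/
theorem iotaFF_normAlong (y : FF K (N * ℓ)) :
    iotaFF K L N (normAlong (heckeAlphaBar K N ℓ) y) =
      normAlong (heckeAlphaBar L N ℓ) (iotaFF K L (N * ℓ) y) := by
  have hfin : FiniteAlong K (IntermediateField.inclusion (FF_le N ℓ K)) := by
    rw [← heckeAlphaBar_eq_inclusion N ℓ (FF_le N ℓ K)]
    exact finiteAlong_alpha K N ℓ
  rw [heckeAlphaBar_eq_inclusion N ℓ (FF_le N ℓ K), heckeAlphaBar_eq_inclusion N ℓ (FF_le N ℓ L)]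
  exact iotaF_normAlong (FF_le N ℓ K) (FF_le N ℓ L)
    (isBC_laurentBaseChange K L (modularFunctionFieldFull N))
    (isBC_laurentBaseChange K L (modularFunctionFieldFull (N * ℓ))) hfin y

/-- the multiplicative Hecke operator on functions commutes with base change. -/
theorem iotaFF_heckeFun (u : FF K N) :
    iotaFF K L N (heckeFun K N ℓ u) = heckeFun L N ℓ (iotaFF K L N u) := by
  rw [heckeFun, iotaFF_normAlong, iotaFF_heckeBetaBar]
  rfl

/-- (C1) over `L` implies (C1) over `K`. -/
theorem normQExpFormula_of_baseChange (ζ : Kˣ)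
    (h : NormQExpFormula L N ℓ (Units.map (algebraMap K L : K →* L) ζ)) :
    NormQExpFormula K N ℓ ζ := by
  intro u
  apply iota_injective (K := K) (L := L)
  have h1 := h (iotaFF K L N u)
  rw [← iotaFF_heckeFun, coe_iotaFF, coe_iotaFF] at h1
  have e1 : ∀ (n : ℕ) [NeZero n] (x : LaurentSeries K),
      iota K L (qExpand K n x) = qExpand L n (iota K L x) :=
    fun n _ x => ModularCurve.coeffMap_qExpand (algebraMap K L) n x
  have e2 : ∀ (b : ℕ) (x : LaurentSeries K),
      iota K L (twist (ζ ^ b) x) =
        twist ((Units.map (algebraMap K L : K →* L) ζ) ^ b) (iota K L x) := by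
    intro b x
    rw [← map_pow]
    exact coeffMap_twist (algebraMap K L) (ζ ^ b) x
  rw [e1, map_mul, e1, map_prod]
  simp only [e2]
  exact h1

end Modular

end Fermat.Agent.Gateway.Hecke.NormBC
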