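import Fermat.Agent.S21.PeriodMap
import Fermat.Agent.S21.Glue
import Fermat.Agent.Gateway.Hecke.Coh
import Fermat.Prelude.Def_ModularForm_HeckeOperatorForms
import Fermat.Prelude.Sol.S_ModularForm_heckeT_slash_eq_self_of_mem_Gamma0

/-!
# P-GATEWAY WP-HK4P: the period map intertwines the Hecke operator `T_l` on weight two cusp forms
with the cohomological Hecke operator on `Hom(Γ₀(N), ℂ)`.

Everything is stated for an arbitrary family `c x` of elements of `Γ₀(N)` satisfying the
cocycle relation `heckeRep l x * γ = c x * heckeRep l (redMatrix l γ • x)`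
(`IsCocFamily`), so that this file does not depend on the choice made in `Gateway/Hecke/Coh.lean`.
-/

set_option autoImplicit false

open Complex Filter Function Topology CongruenceSubgroup ModularForm
open UpperHalfPlane hiding I
open Matrix.SpecialLinearGroup
open scoped Manifold Real MatrixGroups OnePoint
open P2MW.S_ModularForm_heckeT_slash_eq_self_of_mem_Gamma0.ModularForm.HeckeSlashInvariance
open ModularCurve ModularCurve.Period
open Fermat.Agent.S21

namespace Fermat.Agent.Gateway.HeckeCohPeriod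

variable (N l : ℕ) [Fact l.Prime]

/-- A family of elements of `Γ₀(N)` realising the permutation of the Hecke representatives
induced by `γ`. -/
def IsCocFamily (γ : Gamma0 N) (c : OnePoint (ZMod l) → Gamma0 N) : Prop :=
  ∀ x : OnePoint (ZMod l),
    heckeRep l x * mapGL ℝ (γ : SL(2, ℤ))
      = mapGL ℝ ((c x : Gamma0 N) : SL(2, ℤ)) * heckeRep l (redMatrix l (γ : SL(2, ℤ)) • x)

theorem exists_isCocFamily (hlN : ¬ l ∣ N) (γ : Gamma0 N) :
    ∃ c : OnePoint (ZMod l) → Gamma0 N, IsCocFamily N l γ c := by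
  have hcN : (N : ℤ) ∣ (γ : SL(2, ℤ)) 1 0 :=
    (ZMod.intCast_zmod_eq_zero_iff_dvd _ _).mp (CongruenceSubgroup.Gamma0_mem.mp γ.2)
  have h : ∀ x : OnePoint (ZMod l), ∃ g' : Gamma0 N,
      heckeRep l x * mapGL ℝ (γ : SL(2, ℤ))
        = mapGL ℝ ((g' : Gamma0 N) : SL(2, ℤ)) * heckeRep l (redMatrix l (γ : SL(2, ℤ)) • x) := by
    intro x
    obtain ⟨g', hg', hmul⟩ := heckeRep_mul hlN (γ : SL(2, ℤ)) hcN x
    exact ⟨⟨g', CongruenceSubgroup.Gamma0_mem.mpr
      ((ZMod.intCast_zmod_eq_zero_iff_dvd _ _).mpr hg')⟩, hmul⟩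
  choose c hc using h
  exact ⟨c, hc⟩


/-! ### The Hecke representatives on the upper half plane -/

omit [Fact l.Prime] in
theorem det_heckeRep_pos (x : OnePoint (ZMod l)) :
    0 < (heckeRep l x : GL (Fin 2) ℝ).val.det := by
  have h : ∀ g : GL (Fin 2) ℝ, (g.det : ℝ) = g.val.det := fun g =>
    Matrix.GeneralLinearGroup.val_det_apply g
  induction x using OnePoint.rec with
  | infty => rw [heckeRep_infty, ← h]; exact det_heckeDiagMatrix_pos l
  | coe j => rw [heckeRep_coe, ← h]; exact det_heckeMatrix_pos l j.val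

omit [Fact l.Prime] in
theorem im_heckeRep_smul (hl0 : l ≠ 0) (x : OnePoint (ZMod l)) (τ : ℍ) :
    τ.im / l ≤ (heckeRep l x • τ).im := by
  have hl' : (0 : ℝ) < l := by exact_mod_cast Nat.pos_of_ne_zero hl0
  induction x using OnePoint.rec with
  | infty =>
    rw [heckeRep_infty]
    have h : ((heckeDiagMatrix l • τ : ℍ) : ℂ).im = (l : ℝ) * τ.im := by
      rw [coe_heckeDiagMatrix_smul hl0]
      simp
    have h' : (heckeDiagMatrix l • τ : ℍ).im = (l : ℝ) * τ.im := h
    rw [h', div_le_iff₀ hl']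
    have h1 : (1 : ℝ) ≤ l := by exact_mod_cast Nat.pos_of_ne_zero hl0
    have h2 : (1 : ℝ) ≤ l * l := by nlinarith
    nlinarith [mul_le_mul_of_nonneg_left h2 τ.im_pos.le]
  | coe j =>
    rw [heckeRep_coe]
    have h : ((heckeMatrix l j.val • τ : ℍ) : ℂ).im = τ.im / l := by
      rw [coe_heckeMatrix_smul hl0]
      have : ((τ : ℂ) + (j.val : ℂ)) / (l : ℂ) = ((τ : ℂ) + (j.val : ℂ)) * (((l : ℝ)⁻¹ : ℝ) : ℂ) := by
        rw [div_eq_mul_inv]; simp
      rw [this, Complex.im_mul_ofReal]
      simp [div_eq_mul_inv]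
    have h' : (heckeMatrix l j.val • τ : ℍ).im = τ.im / l := h
    rw [h']

omit [Fact l.Prime] in
theorem tendsto_heckeRep_smul (hl0 : l ≠ 0) (x : OnePoint (ZMod l)) :
    Tendsto (fun τ : ℍ => heckeRep l x • τ) atImInfty atImInfty := by
  have hl' : (0 : ℝ) < l := by exact_mod_cast Nat.pos_of_ne_zero hl0
  rw [atImInfty, tendsto_comap_iff]
  have h1 : Tendsto (fun τ : ℍ => τ.im / l) atImInfty atTop :=
    (tendsto_comap (f := UpperHalfPlane.im)).atTop_div_const hl'
  exact tendsto_atTop_mono (fun τ => im_heckeRep_smul l hl0 x τ) h1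

/-- Weight two slash action for a matrix of positive determinant, in chain rule form. -/
theorem slash_two_apply_of_det_pos (f : ℍ → ℂ) {g : GL (Fin 2) ℝ} (hg : 0 < g.val.det) (τ : ℍ) :
    (f ∣[(2 : ℤ)] g) τ = f (g • τ) * ((g.val.det : ℂ) / denom g τ ^ 2) := by
  have hdet : (0 : ℝ) < (g.det : ℝ) := by
    rw [Matrix.GeneralLinearGroup.val_det_apply]; exact hg
  rw [ModularForm.slash_apply, UpperHalfPlane.σ, if_pos hdet]
  simp only [ContinuousAlgEquiv.refl_apply]
  rw [Matrix.GeneralLinearGroup.val_det_apply, abs_of_pos hg]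
  rw [show (2 : ℤ) - 1 = 1 by norm_num, zpow_one, zpow_neg, div_eq_mul_inv, mul_assoc]
  norm_cast


/-! ### The primitive of `T_l f` -/

/-- The candidate primitive of `T_l f`: the sum of the translates of a primitive of `f`. -/
noncomputable def heckePrimitive (F : ℍ → ℂ) : ℍ → ℂ :=
  fun w => ∑ x : OnePoint (ZMod l), F (heckeRep l x • w)

theorem isPrimitiveOf_heckePrimitive {f F : ℍ → ℂ} (hF : IsPrimitiveOf f F) :
    IsPrimitiveOf (heckeT 2 l f) (heckePrimitive l F) := by
  have hl0 : l ≠ 0 := (Fact.out : l.Prime).ne_zero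
  intro τ
  have h1 : (heckePrimitive l F ∘ ofComplex)
      = fun z : ℂ => ∑ x : OnePoint (ZMod l), ((fun w : ℍ => F (heckeRep l x • w)) ∘ ofComplex) z := by
    funext z
    simp only [heckePrimitive, Function.comp_apply]
  have h2 : heckeT 2 l f τ
      = ∑ x : OnePoint (ZMod l), f (heckeRep l x • τ) *
          (((heckeRep l x : GL (Fin 2) ℝ).val.det : ℂ) / denom (heckeRep l x) τ ^ 2) := by
    rw [heckeT_eq_sum_onePoint, Finset.sum_apply]
    exact Finset.sum_congr rfl fun x _ =>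
      slash_two_apply_of_det_pos f (det_heckeRep_pos l x) τ
  rw [h1, h2]
  exact HasDerivAt.fun_sum fun x _ => (hF.comp_smul (det_heckeRep_pos l x)) τ

theorem tendsto_heckePrimitive {F : ℍ → ℂ} (hF : Tendsto F atImInfty (𝓝 0)) :
    Tendsto (heckePrimitive l F) atImInfty (𝓝 0) := by
  have hl0 : l ≠ 0 := (Fact.out : l.Prime).ne_zero
  have h : Tendsto (heckePrimitive l F) atImInfty (𝓝 (∑ _x : OnePoint (ZMod l), (0 : ℂ))) :=
    tendsto_finsetSum _ fun x _ => hF.comp (tendsto_heckeRep_smul l hl0 x)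
  simpa using h


/-- Equivariance of the Hecke primitive, with the explicit period. -/
theorem heckePrimitive_smul_sub {F : ℍ → ℂ} (hF : IsEquivariantPrimitive (Gamma0 N) F)
    {γ : Gamma0 N} {c : OnePoint (ZMod l) → Gamma0 N} (hc : IsCocFamily N l γ c) (z : ℍ) :
    heckePrimitive l F ((γ : SL(2, ℤ)) • z) - heckePrimitive l F z
      = ∑ x : OnePoint (ZMod l), hF.period (c x) := by
  have h1 : ∀ x : OnePoint (ZMod l),
      F (heckeRep l x • ((γ : SL(2, ℤ)) • z))
        = F (heckeRep l (redMatrix l (γ : SL(2, ℤ)) • x) • z) + hF.period (c x) := by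
    intro x
    have h2 : heckeRep l x • ((γ : SL(2, ℤ)) • z)
        = ((c x : Gamma0 N) : SL(2, ℤ)) • (heckeRep l (redMatrix l (γ : SL(2, ℤ)) • x) • z) := by
      rw [ModularGroup.sl_moeb, ModularGroup.sl_moeb, ← mul_smul, ← mul_smul]
      exact congrArg (· • z) (hc x)
    rw [h2]
    have h3 := hF.sub_eq_period (c x) (heckeRep l (redMatrix l (γ : SL(2, ℤ)) • x) • z)
    linear_combination h3
  have h4 : ∑ x : OnePoint (ZMod l), F (heckeRep l (redMatrix l (γ : SL(2, ℤ)) • x) • z)
      = ∑ x : OnePoint (ZMod l), F (heckeRep l x • z) :=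
    Equiv.sum_comp (MulAction.toPerm (redMatrix l (γ : SL(2, ℤ))))
      (fun x => F (heckeRep l x • z))
  simp only [heckePrimitive]
  rw [Finset.sum_congr rfl fun x _ => h1 x, Finset.sum_add_distrib, h4]
  ring

theorem isEquivariantPrimitive_heckePrimitive (hlN : ¬ l ∣ N) {F : ℍ → ℂ}
    (hF : IsEquivariantPrimitive (Gamma0 N) F) :
    IsEquivariantPrimitive (Gamma0 N) (heckePrimitive l F) := by
  intro γ
  obtain ⟨c, hc⟩ := exists_isCocFamily N l hlN γ
  exact ⟨_, fun z => heckePrimitive_smul_sub N l hF hc z⟩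

theorem tendsto_heckePrimitive_cusp {F : ℍ → ℂ}
    (hF : ∀ δ : SL(2, ℤ), ∃ L : ℂ, Tendsto (fun w : ℍ => F (δ • w)) atImInfty (𝓝 L))
    (δ : SL(2, ℤ)) :
    ∃ L : ℂ, Tendsto (fun w : ℍ => heckePrimitive l F (δ • w)) atImInfty (𝓝 L) := by
  have hl0 : l ≠ 0 := (Fact.out : l.Prime).ne_zero
  have hl1 : ¬ l ∣ 1 := fun h => (Fact.out : l.Prime).one_lt.ne' (Nat.dvd_one.mp h)
  have h : ∀ x : OnePoint (ZMod l), ∃ L : ℂ,
      Tendsto (fun w : ℍ => F (heckeRep l x • (δ • w))) atImInfty (𝓝 L) := by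
    intro x
    obtain ⟨g', -, hmul⟩ := heckeRep_mul (N := 1) hl1 δ (by simp) x
    obtain ⟨L, hL⟩ := hF g'
    refine ⟨L, ?_⟩
    have h2 : ∀ w : ℍ, heckeRep l x • (δ • w) = g' • (heckeRep l (redMatrix l δ • x) • w) := by
      intro w
      rw [ModularGroup.sl_moeb, ModularGroup.sl_moeb, ← mul_smul, ← mul_smul]
      exact congrArg (· • w) hmul
    simp_rw [h2]
    exact hL.comp (tendsto_heckeRep_smul l hl0 _)
  choose L hL using h
  exact ⟨∑ x : OnePoint (ZMod l), L x, tendsto_finsetSum _ fun x _ => hL x⟩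

/-- The sum of the Hecke translates of an equivariant primitive of `f` is an equivariant
primitive of `T_l f`. -/
theorem hasEquivariantPrimitive_heckeTLin [NeZero N] (hl : l.Prime) (hlN : ¬ l ∣ N)
    {f : CuspForm (Gamma0 N) 2} {F : ℍ → ℂ} (hF : HasEquivariantPrimitive N f F) :
    HasEquivariantPrimitive N (CuspForm.heckeTLin 2 hl hlN f) (heckePrimitive l F) := by
  refine ⟨?_, tendsto_heckePrimitive l hF.2.1,
    isEquivariantPrimitive_heckePrimitive N l hlN hF.2.2.1,
    tendsto_heckePrimitive_cusp l hF.2.2.2⟩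
  have h : IsPrimitiveOf (heckeT 2 l ⇑f) (heckePrimitive l F) :=
    isPrimitiveOf_heckePrimitive l (f := ⇑f) hF.1
  exact h

/-- **WP-HK4P, pointwise form.** The period of `T_l f` along `γ` is the sum of the periods of `f`
along any cocycle family for `γ`. -/
theorem periodMap_heckeTLin_apply [NeZero N] (hl : l.Prime) (hlN : ¬ l ∣ N) (f : CuspForm (Gamma0 N) 2)
    {γ : Gamma0 N} {c : OnePoint (ZMod l) → Gamma0 N} (hc : IsCocFamily N l γ c) :
    periodMap N (CuspForm.heckeTLin 2 hl hlN f) (Additive.ofMul γ)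
      = ∑ x : OnePoint (ZMod l), periodMap N f (Additive.ofMul (c x)) := by
  obtain ⟨F, hF⟩ := exists_hasEquivariantPrimitive N f
  have hT := hasEquivariantPrimitive_heckeTLin N l hl hlN hF
  rw [periodMap_apply_aux N hT γ UpperHalfPlane.I,
    heckePrimitive_smul_sub N l hF.2.2.1 hc UpperHalfPlane.I]
  refine Finset.sum_congr rfl fun x _ => ?_
  rw [periodMap_apply_aux N hF (c x) UpperHalfPlane.I]
  exact (hF.2.2.1.sub_eq_period (c x) UpperHalfPlane.I).symm


/-! ### Compatibility with the involution `γ ↦ J γ J`, `J = diag(1,-1)` -/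

/-- Negation on the projective line over `ZMod l`. -/
def negOP : Equiv.Perm (OnePoint (ZMod l)) where
  toFun x := x.elim ∞ (fun j => ((-j : ZMod l) : OnePoint (ZMod l)))
  invFun x := x.elim ∞ (fun j => ((-j : ZMod l) : OnePoint (ZMod l)))
  left_inv x := by induction x using OnePoint.rec <;> simp
  right_inv x := by induction x using OnePoint.rec <;> simp

@[simp] theorem negOP_infty : negOP l ∞ = ∞ := rfl

@[simp] theorem negOP_coe (j : ZMod l) : negOP l (j : OnePoint (ZMod l)) = ((-j : ZMod l) : OnePoint (ZMod l)) :=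
  rfl

theorem redMatrix_jConjSL_smul_negOP (g : SL(2, ℤ)) (x : OnePoint (ZMod l)) :
    redMatrix l (jConjSL g) • negOP l x = negOP l (redMatrix l g • x) := by
  have e00 : redMatrix l (jConjSL g) 0 0 = redMatrix l g 0 0 := by
    simp [redMatrix_apply_zero_zero]
  have e01 : redMatrix l (jConjSL g) 0 1 = -redMatrix l g 0 1 := by
    simp [redMatrix_apply_zero_one]
  have e10 : redMatrix l (jConjSL g) 1 0 = -redMatrix l g 1 0 := by
    simp [redMatrix_apply_one_zero]
  have e11 : redMatrix l (jConjSL g) 1 1 = redMatrix l g 1 1 := by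
    simp [redMatrix_apply_one_one]
  induction x using OnePoint.rec with
  | infty =>
    rw [negOP_infty, OnePoint.smul_infty_eq_ite, OnePoint.smul_infty_eq_ite, e10, e00]
    by_cases h : redMatrix l g 1 0 = 0
    · rw [if_pos (by rw [h, neg_zero]), if_pos h, negOP_infty]
    · rw [if_neg (by rwa [neg_eq_zero]), if_neg h, negOP_coe, div_neg]
  | coe j =>
    rw [negOP_coe, OnePoint.smul_some_eq_ite, OnePoint.smul_some_eq_ite, e00, e01, e10, e11]
    have h1 : -redMatrix l g 1 0 * -j + redMatrix l g 1 1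
        = redMatrix l g 1 0 * j + redMatrix l g 1 1 := by ring
    rw [h1]
    by_cases h : redMatrix l g 1 0 * j + redMatrix l g 1 1 = 0
    · rw [if_pos h, if_pos h, negOP_infty]
    · rw [if_neg h, if_neg h, negOP_coe]
      congr 1
      rw [← neg_div]
      congr 1
      ring


/-- The matrix `J = diag(1,-1)`. -/
noncomputable def Jr : GL (Fin 2) ℝ :=
  Matrix.GeneralLinearGroup.mkOfDetNeZero !![1, 0; 0, -1] (by simp)

@[simp] theorem Jr_zero_zero : (Jr : GL (Fin 2) ℝ) 0 0 = 1 := by simp [Jr]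
@[simp] theorem Jr_zero_one : (Jr : GL (Fin 2) ℝ) 0 1 = 0 := by simp [Jr]
@[simp] theorem Jr_one_zero : (Jr : GL (Fin 2) ℝ) 1 0 = 0 := by simp [Jr]
@[simp] theorem Jr_one_one : (Jr : GL (Fin 2) ℝ) 1 1 = -1 := by simp [Jr]

/-- Entries of a conjugate by `J`. -/
theorem Jr_mul_mul_Jr_apply (A : GL (Fin 2) ℝ) (i j : Fin 2) :
    (Jr * A * Jr : GL (Fin 2) ℝ) i j = (if i = j then 1 else -1) * A i j := by
  simp only [Matrix.GeneralLinearGroup.coe_mul, Matrix.mul_apply, Fin.sum_univ_two]
  fin_cases i <;> fin_cases j <;> simp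

theorem Jr_mul_mapGL_mul_Jr (g : SL(2, ℤ)) :
    Jr * mapGL ℝ g * Jr = mapGL ℝ (jConjSL g) := by
  apply Matrix.GeneralLinearGroup.ext
  intro i j
  rw [Jr_mul_mul_Jr_apply]
  fin_cases i <;> fin_cases j <;> simp [jConjSL_coe, jConjMat]

/-- The translation `[[1,e],[0,1]]`. -/
def tMat (e : ℤ) : SL(2, ℤ) := ⟨!![1, e; 0, 1], by simp [Matrix.det_fin_two_of]⟩

/-- The translation `[[1,e],[0,1]]` as an element of `Γ₀(N)`. -/
def tPow (e : ℤ) : Gamma0 N := ⟨tMat e, by simp [Gamma0_mem, tMat]⟩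

theorem Jr_mul_heckeRep_mul_Jr (x : OnePoint (ZMod l)) :
    ∃ t : Gamma0 N, Jr * heckeRep l x * Jr
      = mapGL ℝ ((t : Gamma0 N) : SL(2, ℤ)) * heckeRep l (negOP l x) := by
  have hl0 : l ≠ 0 := (Fact.out : l.Prime).ne_zero
  induction x using OnePoint.rec with
  | infty =>
    refine ⟨1, ?_⟩
    rw [negOP_infty, heckeRep_infty]
    apply Matrix.GeneralLinearGroup.ext
    intro i j
    rw [Jr_mul_mul_Jr_apply]
    fin_cases i <;> fin_cases j <;> simp [val_heckeDiagMatrix hl0]
  | coe j =>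
    by_cases hj : j = 0
    · refine ⟨1, ?_⟩
      subst hj
      rw [negOP_coe, neg_zero, heckeRep_coe]
      apply Matrix.GeneralLinearGroup.ext
      intro i j
      rw [Jr_mul_mul_Jr_apply]
      fin_cases i <;> fin_cases j <;> simp [val_heckeMatrix hl0]
    · refine ⟨tPow N (-1), ?_⟩
      rw [negOP_coe, heckeRep_coe, heckeRep_coe]
      have hv : ((-j : ZMod l).val : ℝ) = (l : ℝ) - (j.val : ℝ) := by
        rw [ZMod.neg_val, if_neg hj, Nat.cast_sub (ZMod.val_lt j).le]
      apply Matrix.GeneralLinearGroup.ext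
      intro i k
      rw [Jr_mul_mul_Jr_apply]
      simp only [Matrix.GeneralLinearGroup.coe_mul, Matrix.mul_apply, Fin.sum_univ_two]
      fin_cases i <;> fin_cases k <;> simp [tPow, tMat, val_heckeMatrix hl0, hv]
      ring


theorem Jr_mul_Jr : Jr * Jr = 1 := by
  apply Matrix.GeneralLinearGroup.ext
  intro i j
  simp only [Matrix.GeneralLinearGroup.coe_mul, Matrix.mul_apply, Fin.sum_univ_two]
  fin_cases i <;> fin_cases j <;> simp

theorem Jr_conj_mul (A B : GL (Fin 2) ℝ) : Jr * (A * B) * Jr = (Jr * A * Jr) * (Jr * B * Jr) := by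
  have h : (Jr * A * Jr) * (Jr * B * Jr) = Jr * A * (Jr * Jr) * B * Jr := by group
  rw [h, Jr_mul_Jr]
  group

/-- The basic relation between cocycle families for `γ` and for `J γ J`. -/
theorem jConj_cocFamily {γ : Gamma0 N} {c c' t : OnePoint (ZMod l) → Gamma0 N}
    (hc : IsCocFamily N l γ c) (hc' : IsCocFamily N l (jConjGamma0 N γ) c')
    (ht : ∀ x, Jr * heckeRep l x * Jr
      = mapGL ℝ ((t x : Gamma0 N) : SL(2, ℤ)) * heckeRep l (negOP l x))
    (x : OnePoint (ZMod l)) :
    t x * c' (negOP l x)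
      = jConjGamma0 N (c x) * t (redMatrix l (γ : SL(2, ℤ)) • x) := by
  have h1 := congrArg (fun A : GL (Fin 2) ℝ => Jr * A * Jr) (hc x)
  simp only [Jr_conj_mul] at h1
  rw [ht x, ht (redMatrix l (γ : SL(2, ℤ)) • x), Jr_mul_mapGL_mul_Jr, Jr_mul_mapGL_mul_Jr] at h1
  have h2 := hc' (negOP l x)
  rw [jConjGamma0_coe, redMatrix_jConjSL_smul_negOP] at h2
  rw [mul_assoc, h2, ← mul_assoc, ← mul_assoc] at h1
  have h3 := mul_right_cancel h1
  rw [← map_mul, ← map_mul] at h3
  have h4 := Matrix.SpecialLinearGroup.mapGL_injective h3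
  apply Subtype.ext
  rw [Subgroup.coe_mul, Subgroup.coe_mul, jConjGamma0_coe]
  exact h4

/-- **Compatibility with the involution.** For a homomorphism `ψ` into an abelian group, the
sum over a cocycle family for `γ` of `ψ ∘ (J · J)` equals the sum of `ψ` over a cocycle family for
`J γ J`. -/
theorem sum_jConj_cocFamily {A : Type*} [AddCommGroup A] (ψ : Additive (Gamma0 N) →+ A)
    {γ : Gamma0 N} {c c' : OnePoint (ZMod l) → Gamma0 N}
    (hc : IsCocFamily N l γ c) (hc' : IsCocFamily N l (jConjGamma0 N γ) c') :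
    ∑ x : OnePoint (ZMod l), ψ (Additive.ofMul (jConjGamma0 N (c x)))
      = ∑ x : OnePoint (ZMod l), ψ (Additive.ofMul (c' x)) := by
  choose t ht using Jr_mul_heckeRep_mul_Jr N l
  have h1 : ∀ x : OnePoint (ZMod l),
      ψ (Additive.ofMul (jConjGamma0 N (c x)))
        = ψ (Additive.ofMul (t x)) + ψ (Additive.ofMul (c' (negOP l x)))
          - ψ (Additive.ofMul (t (redMatrix l (γ : SL(2, ℤ)) • x))) := by
    intro x
    have h2 := congrArg (fun g : Gamma0 N => ψ (Additive.ofMul g)) (jConj_cocFamily N l hc hc' ht x)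
    simp only [ofMul_mul, map_add] at h2
    rw [h2]
    abel
  have h3 : ∑ x : OnePoint (ZMod l), ψ (Additive.ofMul (t (redMatrix l (γ : SL(2, ℤ)) • x)))
      = ∑ x : OnePoint (ZMod l), ψ (Additive.ofMul (t x)) :=
    Equiv.sum_comp (MulAction.toPerm (redMatrix l (γ : SL(2, ℤ))))
      (fun x => ψ (Additive.ofMul (t x)))
  have h4 : ∑ x : OnePoint (ZMod l), ψ (Additive.ofMul (c' (negOP l x)))
      = ∑ x : OnePoint (ZMod l), ψ (Additive.ofMul (c' x)) :=
    Equiv.sum_comp (negOP l) (fun x => ψ (Additive.ofMul (c' x)))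
  rw [Finset.sum_congr rfl fun x _ => h1 x, Finset.sum_sub_distrib, Finset.sum_add_distrib, h3, h4]
  abel


/-! ### Final statements in terms of `heckeHom` (WP-HK4) -/

open Fermat.Agent.Gateway.HeckeCoh

section Final

variable [NeZero N] (hlN : ¬ l ∣ N)

theorem isCocFamily_coc (γ : Gamma0 N) :
    IsCocFamily N l γ (fun x => coc N l hlN x γ) :=
  fun x => coc_spec N l hlN x γ

/-- **WP-HK4P.** The period map intertwines `T_l` on weight two cusp forms with the cohomological
Hecke operator `heckeHom`. -/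
theorem periodMap_heckeTLin (hl : l.Prime) (f : CuspForm (Gamma0 N) 2) :
    periodMap N (CuspForm.heckeTLin 2 hl hlN f) = heckeHom N l hlN ℂ (periodMap N f) := by
  refine AddMonoidHom.ext fun γ => ?_
  have h := periodMap_heckeTLin_apply N l hl hlN f (isCocFamily_coc N l hlN (Additive.toMul γ))
  rw [ofMul_toMul] at h
  rw [h, ← heckeHom_apply, ofMul_toMul]

/-- `heckeHom` commutes with the involution `ψ ↦ ψ ∘ (J · J)`. -/
theorem heckeHom_charInvolution (R : Type*) [Semiring R] (A : Type*) [AddCommGroup A] [Module R A]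
    (ψ : Additive (Gamma0 N) →+ A) :
    heckeHom N l hlN A (charInvolution N R A ψ)
      = charInvolution N R A (heckeHom N l hlN A ψ) := by
  refine AddMonoidHom.ext fun γ => ?_
  have h := sum_jConj_cocFamily N l ψ (isCocFamily_coc N l hlN (Additive.toMul γ))
    (isCocFamily_coc N l hlN (jConjGamma0 N (Additive.toMul γ)))
  rw [charInvolution_apply, heckeHom_apply, ← h, ← ofMul_toMul γ, heckeHom_apply]
  rfl

/-- **WP-HK4P, pair form.** `periodHomPair` intertwines `(T_l, T_l)` with `heckeHom`. -/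
theorem periodHomPair_heckeTLin (hl : l.Prime) (f g : CuspForm (Gamma0 N) 2) :
    periodHomPair N (CuspForm.heckeTLin 2 hl hlN f, CuspForm.heckeTLin 2 hl hlN g)
      = heckeHom N l hlN ℂ (periodHomPair N (f, g)) := by
  have hlin := existsPeriodMapLinear N
  rw [Glue.periodHomPair_apply N hlin, Glue.periodHomPair_apply N hlin,
    periodMap_heckeTLin N l hlN hl f, periodMap_heckeTLin N l hlN hl g,
    map_add, map_add, map_sub, heckeHom_charInvolution N l hlN ℂ ℂ,
    heckeHom_charInvolution N l hlN ℂ ℂ]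

end Final

end Fermat.Agent.Gateway.HeckeCohPeriod
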