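import Fermat.Agent.Gateway.Hecke.NormBaseChange
import Fermat.Agent.Gateway.Dict.CosetsFin

/-!
# P-GATEWAY (C1) over `ℚ̄`, unconditional (helper20)

The `q`-expansion norm formula `NormQExpFormula` (C1 of helper47's Kummer package) over `ℂ`
(`Dict.CosetsFin.normQExpFormula`, helper46/helper24/helper19) descends to `ℚ̄` by
`NormBC.normQExpFormula_of_baseChange`.  The result has exactly the shape of the hypothesis `hC1`
of `Kummer.torsionEichlerShimura`; `heckeInputs_Qbar` is its hypothesis `hHecke`.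
-/

set_option autoImplicit false
set_option linter.style.haveILetI false

open ModularCurve AlgebraicCurve

namespace Fermat.Agent.Gateway.Hecke.C1Qbar

open Fermat.Agent.Gateway.Kummer Fermat.Agent.Gateway.Hecke.NormBC
open Fermat.Agent.Gateway.Dict.QExpTranslate

local notation "Qb" => AlgebraicClosure ℚ

/-- An embedding `ℚ̄ → ℂ`. -/
noncomputable def embQbC : Qb →ₐ[ℚ] ℂ :=
  haveI : Algebra.IsAlgebraic ℚ Qb := AlgebraicClosure.isAlgebraic ℚ
  IsAlgClosed.lift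

/-- An embedding `ℚ̄ → ℂ`, as an algebra structure. -/
@[reducible] noncomputable def algebraQbC : Algebra Qb ℂ := embQbC.toRingHom.toAlgebra

theorem isScalarTower_QbC :
    letI := algebraQbC
    IsScalarTower ℚ Qb ℂ :=
  letI := algebraQbC
  IsScalarTower.of_algebraMap_eq fun q => (embQbC.commutes q).symm

theorem zetaR_pow (ℓ : ℕ) (hℓ : ℓ ≠ 0) : (zetaR (1 / (ℓ : ℝ))) ^ ℓ = 1 := by
  apply Units.ext
  rw [Units.val_pow_eq_pow_val, coe_zetaR, Units.val_one, ← Complex.exp_nat_mul]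
  have h : (ℓ : ℂ) * (2 * Real.pi * Complex.I * ((1 / (ℓ : ℝ) : ℝ) : ℂ)) = 2 * Real.pi * Complex.I := by
    have hl : (ℓ : ℂ) ≠ 0 := by exact_mod_cast hℓ
    push_cast
    field_simp
  rw [h]
  exact Complex.exp_two_pi_mul_I

/-- **(C1) over `ℚ̄`**, in the shape of `hC1` of `Kummer.torsionEichlerShimura`. -/
theorem exists_normQExpFormula (N : ℕ) [NeZero N] (ℓ : ℕ) (hℓ : ℓ.Prime) (hℓN : ¬ ℓ ∣ N) :
    haveI : NeZero ℓ := ⟨hℓ.ne_zero⟩
    ∃ ζ : Qbˣ, ζ ^ ℓ = 1 ∧ NormQExpFormula Qb N ℓ ζ := by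
  haveI : NeZero ℓ := ⟨hℓ.ne_zero⟩
  letI := algebraQbC
  haveI := isScalarTower_QbC
  -- the root of unity over `ℂ`
  set ζC : ℂˣ := zetaR (1 / (ℓ : ℝ)) with hζC
  have hpow : ζC ^ ℓ = 1 := zetaR_pow ℓ hℓ.ne_zero
  -- it is algebraic, hence comes from `ℚ̄`
  have halg : IsAlgebraic Qb (ζC : ℂ) := by
    refine ⟨Polynomial.X ^ ℓ - 1, Polynomial.X_pow_sub_C_ne_zero hℓ.pos 1, ?_⟩
    have : ((ζC : ℂˣ) : ℂ) ^ ℓ = 1 := by
      rw [← Units.val_pow_eq_pow_val, hpow, Units.val_one]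
    simp [this]
  obtain ⟨z, hz⟩ : (ζC : ℂ) ∈ Set.range (algebraMap Qb ℂ) := by
    have h1 : (minpoly Qb (ζC : ℂ)).degree = 1 :=
      IsAlgClosed.degree_eq_one_of_irreducible Qb (minpoly.irreducible halg.isIntegral)
    exact minpoly.mem_range_of_degree_eq_one Qb (ζC : ℂ) h1
  have hzpow : z ^ ℓ = 1 := by
    apply (algebraMap Qb ℂ).injective
    rw [map_pow, hz, map_one, ← Units.val_pow_eq_pow_val, hpow, Units.val_one]
  have hz0 : z ≠ 0 := by
    rintro rfl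
    rw [zero_pow hℓ.ne_zero] at hzpow
    exact zero_ne_one hzpow
  refine ⟨Units.mk0 z hz0, Units.ext (by simpa using hzpow), ?_⟩
  apply normQExpFormula_of_baseChange Qb ℂ N ℓ
  have hmap : Units.map (algebraMap Qb ℂ : Qb →* ℂ) (Units.mk0 z hz0) = ζC :=
    Units.ext hz
  rw [hmap]
  exact Fermat.Agent.Gateway.Dict.CosetsFin.normQExpFormula N ℓ hℓ hℓN

/-- `hHecke` of `Kummer.torsionEichlerShimura`. -/
theorem heckeInputs_Qbar (N : ℕ) [NeZero N] (ℓ : ℕ) (hℓ : ℓ.Prime) (_hℓN : ¬ ℓ ∣ N) :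
    haveI : NeZero ℓ := ⟨hℓ.ne_zero⟩
    HeckeInputsAlong Qb N ℓ :=
  haveI : NeZero ℓ := ⟨hℓ.ne_zero⟩
  Fermat.Agent.Gateway.Hecke.heckeInputsAlong Qb N ℓ

end Fermat.Agent.Gateway.Hecke.C1Qbar
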