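import Fermat.Agent.Gateway.Hecke.Inputs
import Fermat.Agent.Gateway.Hecke.Equivariance

/-!
# P-GATEWAY, WP-HK2: the Hecke operators commute with the Galois action

For an algebraically closed field `L` over `ℚ` and `σ : L ≃ₐ[ℚ] L`, acting on
`Pic⁰ (F_L(N))` through the coefficients of `q`-expansions:
`σ • T_ℓ x = T_ℓ (σ • x)`.
-/

set_option autoImplicit false
set_option linter.unusedSectionVars false
set_option linter.style.haveILetI false

noncomputable section

open ModularCurve AlgebraicCurve IntermediateField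

namespace Fermat.Agent.Gateway.Hecke

variable (L : Type*) [Field L] [Algebra ℚ L] (N ℓ : ℕ) [NeZero N] [NeZero ℓ]

/-- The inclusion `F_L(N) ⊆ F_L(N ℓ)` intertwines the coefficientwise Galois actions. -/
theorem intertwines_alpha (σ : L ≃ₐ[ℚ] L) :
    Intertwines (heckeAlphaBar L N ℓ) (arithmeticGalois (modularFunctionFieldFull N) σ)
      (arithmeticGalois (modularFunctionFieldFull (N * ℓ)) σ) := fun x =>
  Subtype.ext (by
    rw [coe_arithmeticGalois_smul, coe_heckeAlphaBar, coe_heckeAlphaBar,
      coe_arithmeticGalois_smul])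

/-- The degeneracy map `q ↦ q^ℓ` intertwines the coefficientwise Galois actions. -/
theorem intertwines_beta (σ : L ≃ₐ[ℚ] L) :
    Intertwines (heckeBetaBar L N ℓ) (arithmeticGalois (modularFunctionFieldFull N) σ)
      (arithmeticGalois (modularFunctionFieldFull (N * ℓ)) σ) := fun x =>
  Subtype.ext (by
    rw [coe_arithmeticGalois_smul, coe_heckeBetaBar, coe_heckeBetaBar,
      coe_arithmeticGalois_smul, coeffMap_qExpand])

theorem intertwinesAlong_alpha (σ : L ≃ₐ[ℚ] L) :
    SemilinearAut.IntertwinesAlong (heckeAlphaBar L N ℓ : _ →+* _)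
      (arithmeticGalois (modularFunctionFieldFull N) σ)
      (arithmeticGalois (modularFunctionFieldFull (N * ℓ)) σ) :=
  intertwines_alpha L N ℓ σ

theorem intertwinesAlong_beta (σ : L ≃ₐ[ℚ] L) :
    SemilinearAut.IntertwinesAlong (heckeBetaBar L N ℓ : _ →+* _)
      (arithmeticGalois (modularFunctionFieldFull N) σ)
      (arithmeticGalois (modularFunctionFieldFull (N * ℓ)) σ) :=
  intertwines_beta L N ℓ σ

variable [IsAlgClosed L]

/-- **WP-HK2 (= T4).** The Hecke operator commutes with the Galois action. -/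
theorem galois_hecke_comm (σ : L ≃ₐ[ℚ] L)
    (x : Pic0 L (laurentBaseChange L (modularFunctionFieldFull N))) :
    σ • heckeOperatorAlong L N ℓ x = heckeOperatorAlong L N ℓ (σ • x) := by
  rw [heckeOperatorAlong_eq_heckePic0Bar, galois_smul_pic0_def, galois_smul_pic0_def]
  exact pic0Correspondence_smul _ _ _
    (fun v => by rw [deg_eq_one_full L N v]; exact one_ne_zero)
    (intertwines_beta L N ℓ σ) (intertwines_alpha L N ℓ σ) x

/-- The Hecke operator on `J₀(N)(ℚ̄)` commutes with the action of the absolute Galois group. -/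
theorem galois_hecke_comm_JZero (σ : AlgebraicClosure ℚ ≃ₐ[ℚ] AlgebraicClosure ℚ) (x : JZero N) :
    σ • heckeOperatorAlong (AlgebraicClosure ℚ) N ℓ x =
      heckeOperatorAlong (AlgebraicClosure ℚ) N ℓ (σ • x) :=
  galois_hecke_comm (AlgebraicClosure ℚ) N ℓ σ x

end Fermat.Agent.Gateway.Hecke
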