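import Fermat.Agent.Gateway.Hecke.Galois
import Fermat.Agent.Gateway.S31.FromExport

/-!
# P-GATEWAY: export E4 in the shape consumed by `Gateway/S31/FromExport.lean`
-/

set_option autoImplicit false

namespace Fermat.Agent.Gateway.Hecke

/-- **E4**: the Galois action on `J₀(N)` commutes with the Hecke correspondences. -/
theorem galoisHeckeComm (N : ℕ) [NeZero N] : Fermat.Agent.Gateway.S31Red.GaloisHeckeComm N :=
  fun ℓ hℓ _ σ x =>
    haveI : NeZero ℓ := ⟨hℓ.ne_zero⟩
    galois_hecke_comm_JZero N ℓ σ x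

end Fermat.Agent.Gateway.Hecke
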