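import Mathlib
import Fermat.Prelude.Def_AlgebraicCurve_DivisorPushPull
import Fermat.Agent.S24.Fiber
import Fermat.Agent.S24.PrincipalDiv
import Fermat.Agent.S24.ZP.ZeroPlacesGen

/-!
# P-GATEWAY, WP-HK1, abstract core (part 1)

A finite extension `F ⊆ F'` of function fields of curves over an algebraically closed field `K`
of characteristic zero.  For a place `v` of `F` we study the integral closure `Bv v` of the
valuation ring of `v` in `F'`; its height one primes are the places of `F'` over `v`.

Main results:
* `restrict_eq_iff` : `w.restrict F = v ↔ Bv v ⊆ O_w`;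
* `sum_ramificationIndex_fiber` : `∑_{w ∣ v} e(w ∣ v) = [F' : F]`;
* `fundamentalIdentity_of_finite`, `sumRamificationInertia_of_finite`, `inertiaDeg_eq_one`,
  `hasPrincipalDivisors_of_finite`, `deg_eq_one_of_finite`.
-/

set_option autoImplicit false
set_option linter.unusedSectionVars false
set_option linter.style.haveILetI false

noncomputable section

open AlgebraicCurve IsDedekindDomain IntermediateField

namespace Fermat.Agent.Gateway.Hecke

section Setup

variable {K F F' : Type*} [Field K] [Field F] [Field F'] [Algebra K F] [Algebra K F']
  [Algebra F F'] [IsScalarTower K F F']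

instance isScalarTower_place_top (v : Place K F) : IsScalarTower K v.toValuationSubring F' :=
  IsScalarTower.of_algebraMap_eq fun k => by
    show algebraMap K F' k = algebraMap F F' ((algebraMap K v.toValuationSubring k : F))
    rw [Place.coe_algebraMap, ← IsScalarTower.algebraMap_apply]

/-- The integral closure of the valuation ring of `v` in the extension `F'`. -/
abbrev Bv (v : Place K F) : Subalgebra v.toValuationSubring F' :=
  integralClosure v.toValuationSubring F'

theorem coe_algebraMap_Bv (v : Place K F) (a : v.toValuationSubring) :
    ((algebraMap v.toValuationSubring (Bv (F' := F') v) a : Bv (F' := F') v) : F')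
      = algebraMap F F' (a : F) := rfl

theorem algebraMap_place_top (v : Place K F) (a : v.toValuationSubring) :
    algebraMap v.toValuationSubring F' a = algebraMap F F' (a : F) := rfl

instance isTorsionFree_Bv (v : Place K F) :
    Module.IsTorsionFree v.toValuationSubring (Bv (F' := F') v) :=
  Module.isTorsionFree_iff_algebraMap_injective.mpr (by
    intro a b h
    have h2 := congrArg (fun z : Bv (F' := F') v => (z : F')) h
    have h3 : algebraMap F F' (a : F) = algebraMap F F' (b : F) := h2
    exact Subtype.ext ((algebraMap F F').injective h3))

instance flat_Bv (v : Place K F) : Module.Flat v.toValuationSubring (Bv (F' := F') v) :=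
  inferInstance

variable [FiniteDimensional F F']

instance isFractionRing_Bv (v : Place K F) : IsFractionRing (Bv (F' := F') v) F' :=
  integralClosure.isFractionRing_of_finite_extension F F'

variable [CharZero F]

instance isDedekindDomain_Bv (v : Place K F) : IsDedekindDomain (Bv (F' := F') v) :=
  IsIntegralClosure.isDedekindDomain v.toValuationSubring F F' _

instance finite_Bv (v : Place K F) : Module.Finite v.toValuationSubring (Bv (F' := F') v) :=
  IsIntegralClosure.finite v.toValuationSubring F F' _

theorem finrank_Bv (v : Place K F) :
    Module.finrank v.toValuationSubring (Bv (F' := F') v) = Module.finrank F F' :=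
  (IsFractionRing.finrank_eq v.toValuationSubring F (Bv (F' := F') v) F').symm

end Setup

section Restrict

variable {K F F' : Type*} [Field K] [Field F] [Field F'] [Algebra K F] [Algebra K F']
  [Algebra F F'] [IsScalarTower K F F'] [FiniteDimensional F F']

/-- A place `w` of `F'` lies over `v` iff its valuation ring contains the integral closure of
the valuation ring of `v`. -/
theorem restrict_eq_iff (v : Place K F) (w : Place K F') :
    w.restrict F = v ↔ ∀ b : Bv (F' := F') v, (b : F') ∈ w.toValuationSubring := by
  constructor
  · rintro rfl b
    refine Fermat.Agent.S24.ZD.mem_valuationSubring_of_isIntegral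
      (R := (w.restrict F).toValuationSubring) w.toValuationSubring (fun r => ?_) b.2
    exact (Place.mem_restrict_iff w).mp r.2
  · intro h
    have hle : v.toValuationSubring ≤ (w.restrict F).toValuationSubring := by
      intro a ha
      rw [Place.mem_restrict_iff]
      exact h (algebraMap v.toValuationSubring (Bv (F' := F') v) ⟨a, ha⟩)
    exact (Place.ext (ValuationSubring.eq_of_le_of_ne_top _ hle (w.restrict F).ne_top')).symm

theorem ord_irreducible_eq_ramificationIndex (v : Place K F) {π : v.toValuationSubring}
    (hπ : Irreducible π) (w : Place K F') (hw : w.restrict F = v) :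
    w.ord (algebraMap F F' (π : F)) = (w.ramificationIndex F : ℤ) := by
  rw [w.ord_restrict, hw, v.ord_coe_irreducible hπ, mul_one]

end Restrict

theorem charZero_of_algebra (K : Type*) {F : Type*} [Field K] [CharZero K] [Field F]
    [Algebra K F] : CharZero F :=
  charZero_of_injective_algebraMap (algebraMap K F).injective

section AlgClosed

variable {K F F' : Type*} [Field K] [Field F] [Field F'] [Algebra K F] [Algebra K F']
  [Algebra F F'] [IsScalarTower K F F'] [FiniteDimensional F F']
  [IsAlgClosed K] [CharZero K]

omit [IsAlgClosed K] [CharZero K] in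
/-- The image of a transcendental element stays transcendental. -/
theorem transcendental_algebraMap {x : F} (hx : Transcendental K x) :
    Transcendental K (algebraMap F F' x) :=
  (transcendental_algebraMap_iff (algebraMap F F').injective).mpr hx

omit [IsAlgClosed K] [CharZero K] in
/-- `F'` is finite over `K(x')`, `x'` the image of `x`. -/
theorem finiteDimensional_algebraMap (x : F) [FiniteDimensional K⟮x⟯ F] :
    FiniteDimensional K⟮algebraMap F F' x⟯ F' := by
  -- `K(x') = (K(x)).map`, so `F'` is finite over it by transitivity
  let E : IntermediateField K F := K⟮x⟯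
  let E' : IntermediateField K F' := K⟮algebraMap F F' x⟯
  have hEE' : ∀ e : E, algebraMap F F' (e : F) ∈ E' := by
    intro e
    have h1 : E.map (IsScalarTower.toAlgHom K F F') = E' := by
      show (K⟮x⟯).map (IsScalarTower.toAlgHom K F F') = K⟮algebraMap F F' x⟯
      rw [IntermediateField.adjoin_map, Set.image_singleton]
      rfl
    rw [← h1]
    exact ⟨e, e.2, rfl⟩
  let _ : Algebra E E' :=
    (((algebraMap F F').comp (algebraMap E F)).codRestrict E'.toSubring hEE').toAlgebra
  have : IsScalarTower E E' F' := IsScalarTower.of_algebraMap_eq fun e => rfl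
  have : Module.Finite E F' := Module.Finite.trans F F'
  exact Module.Finite.of_restrictScalars_finite E E' F'

variable (x : F) (hx : Transcendental K x) [FiniteDimensional K⟮x⟯ F]

include hx in
/-- Principal divisors of the finite extension `F'`. -/
theorem hasPrincipalDivisors_of_finite : HasPrincipalDivisors K F' :=
  haveI := finiteDimensional_algebraMap (K := K) (F' := F') x
  Fermat.Agent.S24.PD.hasPrincipalDivisors (transcendental_algebraMap (F' := F') hx)

include hx in
/-- All places of the finite extension `F'` have degree one. -/
theorem deg_eq_one_of_finite (w : Place K F') : w.deg = 1 :=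
  haveI := finiteDimensional_algebraMap (K := K) (F' := F') x
  Fermat.Agent.S24.PD.deg_eq_one (transcendental_algebraMap (F' := F') hx) w

include hx in
/-- The inertia degrees of the finite extension `F' / F` are all one. -/
theorem inertiaDeg_eq_one (w : Place K F') : w.inertiaDeg F = 1 := by
  have h1 := w.deg_restrict_mul_inertiaDeg (F := F)
  rw [deg_eq_one_of_finite (F' := F') x hx w, Fermat.Agent.S24.PD.deg_eq_one hx (w.restrict F),
    one_mul] at h1
  exact h1

include hx in
/-- `∑_{w ∣ v} e(w ∣ v) = [F' : F]`. -/
theorem sum_ramificationIndex_fiber [HasPrincipalDivisors K F'] (v : Place K F) :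
    ∑ w ∈ v.fiber F', (w.ramificationIndex F : ℤ) = (Module.finrank F F' : ℤ) := by
  have : CharZero F := charZero_of_algebra K
  obtain ⟨π, hπ⟩ := IsDiscreteValuationRing.exists_irreducible v.toValuationSubring
  have hπ0 : π ≠ 0 := hπ.ne_zero
  have hspan : IsLocalRing.maximalIdeal v.toValuationSubring = Ideal.span {π} :=
    hπ.maximalIdeal_eq
  haveI hmax : (Ideal.span {π}).IsMaximal := hspan ▸ IsLocalRing.maximalIdeal.isMaximal _
  have hres : Function.Surjective
      (algebraMap K (v.toValuationSubring ⧸ Ideal.span {π})) := by
    intro q
    obtain ⟨a, rfl⟩ := Ideal.Quotient.mk_surjective q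
    obtain ⟨c, hc⟩ := Fermat.Agent.S24.PD.residue_surjective hx v
      (IsLocalRing.residue v.toValuationSubring a)
    refine ⟨c, ?_⟩
    have hc' : IsLocalRing.residue v.toValuationSubring
        (algebraMap K v.toValuationSubring c) = IsLocalRing.residue v.toValuationSubring a := hc
    rw [← sub_eq_zero, ← map_sub, IsLocalRing.residue_eq_zero_iff, hspan] at hc'
    rw [IsScalarTower.algebraMap_apply K v.toValuationSubring
      (v.toValuationSubring ⧸ Ideal.span {π}), Ideal.Quotient.algebraMap_eq]
    exact Ideal.Quotient.eq.mpr hc'
  obtain ⟨inst, hsum⟩ := Fermat.Agent.S24.ZD.sum_ord_zeroPlaces (K := K) (F := F')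
    (Bv (F' := F') v) π hπ0 hres
  have hset : ∀ w : Place K F', w ∈ v.fiber F' ↔
      w ∈ Fermat.Agent.S24.ZD.zeroPlaces (K := K) (F := F') (Bv (F' := F') v) π := by
    intro w
    rw [Place.mem_fiber, restrict_eq_iff]
    constructor
    · intro h
      refine ⟨h, ?_⟩
      have hw : w.restrict F = v := (restrict_eq_iff v w).mpr h
      rw [algebraMap_place_top, ord_irreducible_eq_ramificationIndex v hπ w hw]
      exact_mod_cast w.ramificationIndex_pos (F := F)
    · exact fun h => h.1
  rw [Finset.sum_subtype (v.fiber F') hset, ← finrank_Bv (F' := F') v, ← hsum]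
  refine Finset.sum_congr rfl fun w _ => ?_
  have hw : w.1.restrict F = v := Place.mem_fiber.mp ((hset w.1).mpr w.2)
  rw [algebraMap_place_top, ord_irreducible_eq_ramificationIndex v hπ w.1 hw]

include hx in
theorem sumRamificationInertia_of_finite [HasPrincipalDivisors K F'] :
    SumRamificationInertia K F F' where
  sum_ramificationIndex_mul_inertiaDeg v := by
    rw [← sum_ramificationIndex_fiber (F' := F') x hx v]
    refine Finset.sum_congr rfl fun w _ => ?_
    rw [inertiaDeg_eq_one (F' := F') x hx w, Nat.cast_one, mul_one]

include hx in
theorem fundamentalIdentity_of_finite [HasPrincipalDivisors K F'] :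
    FundamentalIdentity K F F' :=
  haveI := sumRamificationInertia_of_finite (F' := F') x hx
  inferInstance

end AlgClosed

end Fermat.Agent.Gateway.Hecke
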